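import Mathlib.NumberTheory.NumberField.Units.DirichletTheorem
import Mathlib.NumberTheory.NumberField.Cyclotomic.Embeddings
import Mathlib.NumberTheory.NumberField.Cyclotomic.Basic
import Mathlib.LinearAlgebra.Eigenspace.Zero
import Mathlib.LinearAlgebra.Charpoly.BaseChange
import Mathlib.Tactic

set_option autoImplicit false
set_option linter.unusedSectionVars false
set_option maxSynthPendingDepth 3

/-!
# Eigenspaces of the Galois group on units of `ℚ(ζ_p)` modulo `p`-th powers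
-/

namespace Fermat.Agent.H10.UnitEigen

open NumberField NumberField.Units Polynomial Finset

variable {p : ℕ} [hp : Fact p.Prime] {K : Type*} [Field K] [NumberField K]
  [IsCyclotomicExtension {p} ℚ K] {ζ : K} (hζ : IsPrimitiveRoot ζ p)

/-- Galois action on units. -/
noncomputable def su (σ : K ≃ₐ[ℚ] K) : (𝓞 K)ˣ →* (𝓞 K)ˣ :=
  Units.map (MulSemiringAction.toRingHom (K ≃ₐ[ℚ] K) (𝓞 K) σ : 𝓞 K →* 𝓞 K)

lemma su_coe (σ : K ≃ₐ[ℚ] K) (u : (𝓞 K)ˣ) : ((su σ u : (𝓞 K)ˣ) : K) = σ (u : K) := rfl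

lemma su_torsion (σ : K ≃ₐ[ℚ] K) : torsion K ≤ (torsion K).comap (su σ) := by
  intro x hx
  rw [Subgroup.mem_comap]
  rw [torsion, CommGroup.mem_torsion] at hx ⊢
  exact (su σ).isOfFinOrder hx

/-- The free module `E/μ`. -/
abbrev MM (K : Type*) [Field K] [NumberField K] : Type _ := Additive ((𝓞 K)ˣ ⧸ torsion K)

/-- The Galois action on `E/μ`. -/
noncomputable def TM (σ : K ≃ₐ[ℚ] K) : MM K →ₗ[ℤ] MM K :=
  AddMonoidHom.toIntLinearMap
    (MonoidHom.toAdditive (QuotientGroup.map (torsion K) (torsion K) (su σ) (su_torsion σ)))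

/-- class of a unit -/
def cl (u : (𝓞 K)ˣ) : MM K := Additive.ofMul (QuotientGroup.mk u)

lemma TM_cl (σ : K ≃ₐ[ℚ] K) (u : (𝓞 K)ˣ) : TM σ (cl u) = cl (su σ u) := rfl

lemma cl_surj (x : MM K) : ∃ u, cl u = x := by
  obtain ⟨u, hu⟩ := QuotientGroup.mk_surjective x.toMul
  exact ⟨u, by rw [cl, hu]; rfl⟩

lemma cl_mul (u v : (𝓞 K)ˣ) : cl (u * v) = cl u + cl v := rfl

lemma cl_pow (u : (𝓞 K)ˣ) (n : ℕ) : cl (u ^ n) = n • cl u := rfl

/-- the logarithm at a place -/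
noncomputable def LL (w : InfinitePlace K) : MM K →ₗ[ℤ] ℝ :=
  AddMonoidHom.toIntLinearMap (AddMonoidHom.mk' (fun x => Quotient.liftOn' x.toMul
    (fun u : (𝓞 K)ˣ => Real.log (w (u : K))) (by
      intro a b hab
      rw [QuotientGroup.leftRel_apply] at hab
      have h1 : w ((a⁻¹ * b : (𝓞 K)ˣ) : K) = 1 := by
        exact (mem_torsion K).mp hab w
      have h2 : (b : K) = (a : K) * ((a⁻¹ * b : (𝓞 K)ˣ) : K) := by
        rw [← Units.coe_mul, mul_inv_cancel_left]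
      show Real.log (w (a : K)) = Real.log (w (b : K))
      rw [h2, map_mul, h1, mul_one])) (by
    intro x y
    obtain ⟨u, rfl⟩ := cl_surj x
    obtain ⟨v, rfl⟩ := cl_surj y
    show Real.log (w ((u * v : (𝓞 K)ˣ) : K)) = Real.log (w (u : K)) + Real.log (w (v : K))
    rw [Units.coe_mul, map_mul, Real.log_mul]
    · exact (pos_at_place u w).ne'
    · exact (pos_at_place v w).ne'))

lemma LL_cl (w : InfinitePlace K) (u : (𝓞 K)ˣ) : LL w (cl u) = Real.log (w (u : K)) := rfl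

lemma rank_MM : Module.finrank ℤ (MM K) = rank K := finrank_modTorsion K

/-! ### The Galois orbit of a place -/

section places

variable {σ : K ≃ₐ[ℚ] K} {g : ℕ}

include hζ in
lemma hom_ext {φ ψ : K →+* ℂ} (h : φ ζ = ψ ζ) : φ = ψ := by
  have : NeZero p := ⟨hp.out.ne_zero⟩
  have h1 : φ.toRatAlgHom = ψ.toRatAlgHom := by
    apply (hζ.powerBasis ℚ).algHom_ext
    simpa using h
  ext x
  exact DFunLike.congr_fun h1 x

lemma sigma_pow_zeta (hσ : σ ζ = ζ ^ g) (i : ℕ) : (σ ^ i) ζ = ζ ^ (g ^ i) := by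
  induction i with
  | zero => simp
  | succ i ih =>
    rw [pow_succ', AlgEquiv.mul_apply, ih, map_pow, hσ, ← pow_mul, pow_succ, mul_comm g]

lemma neg_one_eq (hg : orderOf (g : ZMod p) = p - 1) (hp3 : 3 ≤ p) :
    ((g : ZMod p)) ^ ((p - 1) / 2) = -1 := by
  have hodd : Odd p := hp.out.odd_of_ne_two (by omega)
  obtain ⟨k, hk⟩ := hodd
  have h2 : ((g : ZMod p) ^ ((p - 1) / 2)) ^ 2 = 1 := by
    rw [← pow_mul]
    have : (p - 1) / 2 * 2 = p - 1 := by omega
    rw [this, ← hg, pow_orderOf_eq_one]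
  have h3 : (g : ZMod p) ^ ((p - 1) / 2) ≠ 1 := by
    intro h
    have := orderOf_dvd_of_pow_eq_one h
    rw [hg] at this
    have := Nat.le_of_dvd (by omega) this
    omega
  rcases sq_eq_one_iff_of_side_cond h2 with h | h
  · exact absurd h h3
  · exact h
where
  sq_eq_one_iff_of_side_cond {x : ZMod p} (h : x ^ 2 = 1) : x = 1 ∨ x = -1 := by
    have : (x - 1) * (x + 1) = 0 := by linear_combination h
    rcases mul_eq_zero.mp this with h | h
    · left; linear_combination h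
    · right; linear_combination h

include hζ in
lemma norm_phi_zeta (φ : K →+* ℂ) : ‖φ ζ‖ = 1 := by
  have h1 : IsPrimitiveRoot (φ ζ) p := hζ.map_of_injective φ.injective
  exact h1.norm'_eq_one hp.out.ne_zero

include hζ in
lemma zeta_pow_eq_iff (a b : ℕ) : ζ ^ a = ζ ^ b ↔ ((a : ZMod p) = b) := by
  have h1 : ∀ a : ℕ, ζ ^ a = ζ ^ (a % p) := by
    intro a
    have := pow_mod_orderOf ζ a
    rw [← hζ.eq_orderOf] at this
    exact this.symm
  rw [ZMod.natCast_eq_natCast_iff', h1 a, h1 b]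
  constructor
  · exact hζ.pow_inj (Nat.mod_lt _ hp.out.pos) (Nat.mod_lt _ hp.out.pos)
  · intro h; rw [h]

include hζ in
lemma comp_eq_conj_iff (hσ : σ ζ = ζ ^ g) (φ : K →+* ℂ) (i : ℕ) :
    φ.comp ((σ ^ i : K ≃ₐ[ℚ] K) : K →+* K) = ComplexEmbedding.conjugate φ ↔
      (g : ZMod p) ^ i = -1 := by
  have h0 : (starRingEnd ℂ) (φ ζ) = (φ ζ)⁻¹ := (Complex.inv_eq_conj (norm_phi_zeta hζ φ)).symm
  have hz : φ ζ ≠ 0 := by
    rw [ne_eq, map_eq_zero]; exact hζ.ne_zero hp.out.ne_zero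
  have h1 : (g : ZMod p) ^ i = -1 ↔ ζ ^ (g ^ i + 1) = ζ ^ 0 := by
    rw [zeta_pow_eq_iff hζ]
    push_cast
    constructor
    · intro h; rw [h]; ring
    · intro h; linear_combination h
  rw [h1]
  constructor
  · intro h
    have h2 := DFunLike.congr_fun h ζ
    simp only [RingHom.comp_apply, RingHom.coe_coe, ComplexEmbedding.conjugate_coe_eq] at h2
    rw [sigma_pow_zeta hσ, h0, map_pow] at h2
    apply φ.injective
    rw [map_pow, pow_succ, h2, inv_mul_cancel₀ hz]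
    simp
  · intro h
    apply hom_ext hζ
    simp only [RingHom.comp_apply, RingHom.coe_coe, ComplexEmbedding.conjugate_coe_eq]
    rw [sigma_pow_zeta hσ, h0]
    have h2 := congrArg φ h
    rw [map_pow, pow_succ, pow_zero, map_one] at h2
    rw [map_pow]
    exact eq_inv_of_mul_eq_one_left h2

include hζ in
lemma comp_eq_iff (hσ : σ ζ = ζ ^ g) (φ : K →+* ℂ) (i : ℕ) :
    φ.comp ((σ ^ i : K ≃ₐ[ℚ] K) : K →+* K) = φ ↔ (g : ZMod p) ^ i = 1 := by
  have h1 : (g : ZMod p) ^ i = 1 ↔ ζ ^ (g ^ i) = ζ ^ 1 := by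
    rw [zeta_pow_eq_iff hζ]
    push_cast
    rfl
  rw [h1]
  constructor
  · intro h
    have h2 := DFunLike.congr_fun h ζ
    simp only [RingHom.comp_apply, RingHom.coe_coe] at h2
    rw [sigma_pow_zeta hσ] at h2
    rw [pow_one]
    exact φ.injective h2
  · intro h
    apply hom_ext hζ
    simp only [RingHom.comp_apply, RingHom.coe_coe]
    rw [sigma_pow_zeta hσ, h, pow_one]

/-- the place `x ↦ |φ (σ^i x)|`. -/
noncomputable def wi (σ : K ≃ₐ[ℚ] K) (φ : K →+* ℂ) (i : ℕ) : InfinitePlace K :=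
  InfinitePlace.mk (φ.comp ((σ ^ i : K ≃ₐ[ℚ] K) : K →+* K))

lemma wi_apply (φ : K →+* ℂ) (i : ℕ) (x : K) : wi σ φ i x = ‖φ ((σ ^ i) x)‖ := rfl

include hζ in
lemma wi_add (hg : orderOf (g : ZMod p) = p - 1) (hp3 : 3 ≤ p) (hσ : σ ζ = ζ ^ g)
    (φ : K →+* ℂ) (i : ℕ) : wi σ φ (i + (p - 1) / 2) = wi σ φ i := by
  have h1 := (comp_eq_conj_iff hζ hσ φ ((p - 1) / 2)).mpr (neg_one_eq hg hp3)
  apply DFunLike.ext
  intro x
  rw [wi_apply, wi_apply, add_comm, pow_add, AlgEquiv.mul_apply]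
  have h2 := DFunLike.congr_fun h1 ((σ ^ i) x)
  simp only [RingHom.comp_apply, RingHom.coe_coe, ComplexEmbedding.conjugate_coe_eq] at h2
  rw [h2, RCLike.norm_conj]

include hζ in
lemma wi_ne (hg : orderOf (g : ZMod p) = p - 1) (hp3 : 3 ≤ p) (hσ : σ ζ = ζ ^ g)
    (φ : K →+* ℂ) (i : ℕ) (hi : 0 < i) (hi' : i < (p - 1) / 2) : wi σ φ i ≠ wi σ φ 0 := by
  intro h
  rw [wi, wi, InfinitePlace.mk_eq_iff] at h
  have h0 : φ.comp ((σ ^ 0 : K ≃ₐ[ℚ] K) : K →+* K) = φ := by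
    ext x; simp
  rw [h0] at h
  rcases h with h | h
  · rw [comp_eq_iff hζ hσ] at h
    have := orderOf_dvd_of_pow_eq_one h
    rw [hg] at this
    have := Nat.le_of_dvd hi this
    omega
  · have h' : φ.comp ((σ ^ i : K ≃ₐ[ℚ] K) : K →+* K) = ComplexEmbedding.conjugate φ := by
      conv_rhs => rw [← h]
      ext x; simp
    rw [comp_eq_conj_iff hζ hσ] at h'
    have h2 : (g : ZMod p) ^ (2 * i) = 1 := by
      rw [mul_comm, pow_mul, h']; ring
    have := orderOf_dvd_of_pow_eq_one h2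
    rw [hg] at this
    have := Nat.le_of_dvd (by omega) this
    omega

include hζ in
lemma wi_injOn (hg : orderOf (g : ZMod p) = p - 1) (hp3 : 3 ≤ p) (hσ : σ ζ = ζ ^ g)
    (φ : K →+* ℂ) (i j : ℕ) (hij : i < j) (hj' : j < (p - 1) / 2) : wi σ φ i ≠ wi σ φ j := by
  intro h
  apply wi_ne hζ hg hp3 hσ φ (j - i) (by omega) (by omega)
  apply DFunLike.ext
  intro x
  have h2 : wi σ φ i ((σ ^ i).symm x) = wi σ φ j ((σ ^ i).symm x) := by rw [h]
  rw [wi_apply, wi_apply] at h2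
  rw [wi_apply, wi_apply, pow_zero, AlgEquiv.one_apply]
  have h3 : (σ ^ j) ((σ ^ i).symm x) = (σ ^ (j - i)) x := by
    have : j = (j - i) + i := by omega
    conv_lhs => rw [this, pow_add, AlgEquiv.mul_apply]
    rw [AlgEquiv.apply_symm_apply]
  rw [h3, AlgEquiv.apply_symm_apply] at h2
  exact h2.symm

lemma card_places (hp3 : 3 ≤ p) [NeZero p] : Fintype.card (InfinitePlace K) = (p - 1) / 2 := by
  rw [InfinitePlace.card_eq_nrRealPlaces_add_nrComplexPlaces,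
    IsCyclotomicExtension.Rat.nrRealPlaces_eq_zero (n := p) K (by omega),
    IsCyclotomicExtension.Rat.nrComplexPlaces_eq_totient_div_two p K,
    Nat.totient_prime hp.out, zero_add]

include hζ in
lemma wi_bij (hg : orderOf (g : ZMod p) = p - 1) (hp3 : 3 ≤ p) (hσ : σ ζ = ζ ^ g)
    (φ : K →+* ℂ) : Function.Bijective (fun i : Fin ((p - 1) / 2) => wi σ φ i) := by
  have : NeZero p := ⟨hp.out.ne_zero⟩
  rw [Fintype.bijective_iff_injective_and_card]
  constructor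
  · intro i j h
    rcases lt_trichotomy i j with h1 | h1 | h1
    · exact absurd h (wi_injOn hζ hg hp3 hσ φ i j h1 j.2)
    · exact h1
    · exact absurd h.symm (wi_injOn hζ hg hp3 hσ φ j i h1 i.2)
  · rw [Fintype.card_fin, card_places hp3]

/-- `log |φ (σ^i u)|`. -/
noncomputable def Li (σ : K ≃ₐ[ℚ] K) (φ : K →+* ℂ) (i : ℕ) : MM K →ₗ[ℤ] ℝ := LL (wi σ φ i)

lemma Li_TM (φ : K →+* ℂ) (i : ℕ) (x : MM K) : Li σ φ i (TM σ x) = Li σ φ (i + 1) x := by
  obtain ⟨u, rfl⟩ := cl_surj x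
  rw [TM_cl, Li, Li, LL_cl, LL_cl, wi_apply, wi_apply, su_coe, pow_succ, AlgEquiv.mul_apply]

include hζ in
lemma sum_Li (hg : orderOf (g : ZMod p) = p - 1) (hp3 : 3 ≤ p) (hσ : σ ζ = ζ ^ g)
    (φ : K →+* ℂ) (x : MM K) : ∑ i ∈ range ((p - 1) / 2), Li σ φ i x = 0 := by
  have : NeZero p := ⟨hp.out.ne_zero⟩
  obtain ⟨u, rfl⟩ := cl_surj x
  have h1 := sum_mult_mul_log u
  have hmult : ∀ w : InfinitePlace K, w.mult = 2 := by
    intro w
    have := IsCyclotomicExtension.Rat.isTotallyComplex (n := p) K (by omega)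
    rw [InfinitePlace.mult, if_neg]
    exact InfinitePlace.not_isReal_iff_isComplex.mpr (this.isComplex w)
  simp_rw [hmult] at h1
  rw [← Finset.mul_sum] at h1
  have h2 : ∑ w : InfinitePlace K, Real.log (w (u : K)) = 0 := by
    rcases mul_eq_zero.mp h1 with h | h
    · norm_num at h
    · exact h
  rw [← (Equiv.ofBijective _ (wi_bij hζ hg hp3 hσ φ)).sum_comp] at h2
  rw [Finset.sum_range]
  exact h2

/-- the eigenfunctional -/
noncomputable def Lam (p : ℕ) (σ : K ≃ₐ[ℚ] K) (φ : K →+* ℂ) (η : ℂ) : MM K →ₗ[ℤ] ℂ :=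
  ∑ i ∈ range ((p - 1) / 2), (η ^ i) • ((Complex.ofRealAm.toLinearMap.restrictScalars ℤ).comp (Li σ φ i))

lemma Lam_apply (φ : K →+* ℂ) (η : ℂ) (x : MM K) :
    Lam p σ φ η x = ∑ i ∈ range ((p - 1) / 2), η ^ i * (Li σ φ i x : ℂ) := by
  rw [Lam, LinearMap.sum_apply]
  rfl

include hζ in
lemma Lam_TM (hg : orderOf (g : ZMod p) = p - 1) (hp3 : 3 ≤ p) (hσ : σ ζ = ζ ^ g)
    (φ : K →+* ℂ) {η : ℂ} (hη : η ^ ((p - 1) / 2) = 1) (x : MM K) :
    η * Lam p σ φ η (TM σ x) = Lam p σ φ η x := by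
  rw [Lam_apply, Lam_apply, Finset.mul_sum]
  simp_rw [Li_TM]
  have h1 : ∀ i, η * (η ^ i * ((Li σ φ (i + 1)) x : ℂ)) = (fun j => η ^ j * ((Li σ φ j) x : ℂ)) (i + 1) := by
    intro i; simp only; ring
  simp_rw [h1]
  have h2 := Finset.sum_range_succ (fun j => η ^ j * ((Li σ φ j) x : ℂ)) ((p - 1) / 2)
  have h3 := Finset.sum_range_succ' (fun j => η ^ j * ((Li σ φ j) x : ℂ)) ((p - 1) / 2)
  have h4 : Li σ φ ((p - 1) / 2) x = Li σ φ 0 x := by
    have := wi_add hζ hg hp3 hσ φ 0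
    rw [zero_add] at this
    rw [Li, Li, this]
  rw [h2] at h3
  simp only [hη, h4, pow_zero] at h3
  exact (add_right_cancel h3).symm

include hζ in
lemma Lam_ne_zero (hg : orderOf (g : ZMod p) = p - 1) (hp5 : 5 ≤ p) (hσ : σ ζ = ζ ^ g)
    (φ : K →+* ℂ) {η : ℂ} (hη : η ^ ((p - 1) / 2) = 1) (hη1 : η ≠ 1) :
    ∃ x : MM K, Lam p σ φ η x ≠ 0 := by
  have : NeZero p := ⟨hp.out.ne_zero⟩
  obtain ⟨u, hu⟩ := dirichletUnitTheorem.exists_unit K (wi σ φ 0)
  refine ⟨cl u, fun h => ?_⟩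
  rw [Lam_apply] at h
  have hsum := sum_Li hζ hg (by omega) hσ φ (cl u)
  have hneg : ∀ i, 0 < i → i < (p - 1) / 2 → Li σ φ i (cl u) < 0 := by
    intro i h1 h2
    rw [Li, LL_cl]
    exact hu _ (wi_ne hζ hg (by omega) hσ φ i h1 h2)
  have hnorm : ‖η‖ = 1 := by
    have : ‖η‖ ^ ((p - 1) / 2) = 1 := by rw [← norm_pow, hη, norm_one]
    exact (pow_eq_one_iff_of_nonneg (norm_nonneg _) (by omega)).mp this
  have hre : ∀ i, (η ^ i).re ≤ 1 := by
    intro i
    calc (η ^ i).re ≤ ‖η ^ i‖ := Complex.re_le_norm _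
      _ = 1 := by rw [norm_pow, hnorm, one_pow]
  have hre1 : η.re < 1 := by
    rcases lt_or_eq_of_le (by simpa using hre 1 : η.re ≤ 1) with h | h
    · exact h
    · exfalso
      apply hη1
      have h2 : η.re ^ 2 + η.im ^ 2 = 1 := by
        have := Complex.sq_norm η
        rw [hnorm, Complex.normSq_apply] at this
        nlinarith
      apply Complex.ext
      · simpa using h
      · simp
        nlinarith
  have h1 : ∑ i ∈ range ((p - 1) / 2), ((η ^ i).re - 1) * Li σ φ i (cl u) = 0 := by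
    have h2 := congrArg Complex.re h
    rw [Complex.re_sum] at h2
    simp only [Complex.re_mul_ofReal, Complex.zero_re] at h2
    simp_rw [sub_mul, one_mul]
    rw [Finset.sum_sub_distrib, h2, hsum, sub_zero]
  have h3 : ∀ i ∈ range ((p - 1) / 2), 0 ≤ ((η ^ i).re - 1) * Li σ φ i (cl u) := by
    intro i hi
    rcases Nat.eq_zero_or_pos i with h0 | h0
    · subst h0; simp
    · have := hneg i h0 (by simpa using hi)
      have := hre i
      nlinarith
  have h4 := (Finset.sum_eq_zero_iff_of_nonneg h3).mp h1 1 (by rw [Finset.mem_range]; omega)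
  rw [pow_one] at h4
  have h5 := hneg 1 (by omega) (by omega)
  rcases mul_eq_zero.mp h4 with h | h
  · linarith
  · linarith

/-! ### The characteristic polynomial -/

lemma Lam_aeval {η : ℂ} {φ : K →+* ℂ} (h : ∀ x, η * Lam p σ φ η (TM σ x) = Lam p σ φ η x)
    (hη0 : η ≠ 0) (f : ℤ[X]) (x : MM K) :
    Lam p σ φ η (aeval (TM σ) f x) = aeval η⁻¹ f * Lam p σ φ η x := by
  have h1 : ∀ (n : ℕ) (x : MM K), Lam p σ φ η ((TM σ ^ n) x) = η⁻¹ ^ n * Lam p σ φ η x := by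
    intro n
    induction n with
    | zero => intro x; simp
    | succ n ih =>
      intro x
      rw [pow_succ, Module.End.mul_apply, ih, pow_succ, ← h x]
      field_simp
  induction f using Polynomial.induction_on' with
  | add f g hf hg => rw [map_add, LinearMap.add_apply, map_add, hf, hg, map_add, add_mul]
  | monomial n a =>
    rw [aeval_monomial, aeval_monomial, Module.End.mul_apply, Module.algebraMap_end_apply,
      map_zsmul, h1]
    rw [zsmul_eq_mul]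
    simp [mul_assoc]

include hζ in
lemma charpoly_root (hg : orderOf (g : ZMod p) = p - 1) (hp5 : 5 ≤ p) (hσ : σ ζ = ζ ^ g)
    {θ : ℂ} (hθ : θ ^ ((p - 1) / 2) = 1) (hθ1 : θ ≠ 1) :
    aeval θ (TM σ : MM K →ₗ[ℤ] MM K).charpoly = 0 := by
  have φ : K →+* ℂ := Classical.choice inferInstance
  have hθ0 : θ ≠ 0 := by
    rintro rfl
    rw [zero_pow (by omega)] at hθ
    exact zero_ne_one hθ
  have hη : θ⁻¹ ^ ((p - 1) / 2) = 1 := by rw [inv_pow, hθ, inv_one]
  have hη1 : θ⁻¹ ≠ 1 := by simpa using hθ1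
  obtain ⟨x, hx⟩ := Lam_ne_zero hζ hg hp5 hσ φ hη hη1
  have h1 := Lam_aeval (fun x => Lam_TM hζ hg (by omega) hσ φ hη x) (inv_ne_zero hθ0)
    (TM σ : MM K →ₗ[ℤ] MM K).charpoly x
  rw [LinearMap.aeval_self_charpoly, LinearMap.zero_apply, map_zero, inv_inv] at h1
  rcases mul_eq_zero.mp h1.symm with h | h
  · exact h
  · exact absurd h hx

include hζ in
lemma charpoly_mul (hg : orderOf (g : ZMod p) = p - 1) (hp5 : 5 ≤ p) (hσ : σ ζ = ζ ^ g) :
    (TM σ : MM K →ₗ[ℤ] MM K).charpoly * (X - 1) = X ^ ((p - 1) / 2) - 1 := by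
  have : NeZero p := ⟨hp.out.ne_zero⟩
  set m := (p - 1) / 2 with hm
  have hm0 : 0 < m := by omega
  set χ := (TM σ : MM K →ₗ[ℤ] MM K).charpoly with hχ
  have hχm : χ.Monic := LinearMap.charpoly_monic _
  have hχd : χ.natDegree = m - 1 := by
    rw [hχ, LinearMap.charpoly_natDegree, rank_MM, rank, card_places (p := p) (by omega)]
  have hinj : Function.Injective (Polynomial.map (Int.castRingHom ℂ)) :=
    Polynomial.map_injective _ Int.cast_injective
  apply hinj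
  have hmon : (χ * (X - 1)).Monic := by
    apply hχm.mul
    have := monic_X_sub_C (1 : ℤ)
    rwa [C_1] at this
  have hprim : IsPrimitiveRoot (Complex.exp (2 * Real.pi * Complex.I / m)) m :=
    Complex.isPrimitiveRoot_exp m hm0.ne'
  apply eq_of_monic_of_dvd_of_natDegree_le
  · have h9 := (monic_X_pow_sub_C (1 : ℤ) hm0.ne').map (Int.castRingHom ℂ)
    rwa [C_1] at h9
  · exact hmon.map _
  · have h2 : Polynomial.map (Int.castRingHom ℂ) (X ^ m - 1) =
        ∏ μ ∈ nthRootsFinset m (1 : ℂ), (X - C μ) := by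
      rw [← X_pow_sub_one_eq_prod hm0 hprim]
      simp
    rw [h2]
    apply Finset.prod_dvd_of_coprime
    · intro a _ b _ hab
      exact (pairwise_coprime_X_sub_C (fun a b h => h : Function.Injective (id : ℂ → ℂ))) hab
    · intro μ hμ
      rw [mem_nthRootsFinset hm0] at hμ
      rw [dvd_iff_isRoot, IsRoot.def, eval_map]
      by_cases h1 : μ = 1
      · subst h1
        simp [eval₂_mul]
      · rw [eval₂_mul]
        have := charpoly_root hζ hg hp5 hσ hμ h1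
        rw [aeval_def] at this
        rw [show eval₂ (Int.castRingHom ℂ) μ χ = 0 from this, zero_mul]
  · rw [natDegree_map_eq_of_injective Int.cast_injective,
      natDegree_map_eq_of_injective Int.cast_injective]
    have h3 : (X - 1 : ℤ[X]).natDegree = 1 := by
      have := natDegree_X_sub_C (1 : ℤ)
      rwa [C_1] at this
    have h4 : (X - 1 : ℤ[X]).Monic := by
      have := monic_X_sub_C (1 : ℤ)
      rwa [C_1] at this
    rw [hχm.natDegree_mul h4, hχd, h3]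
    have h5 : (X ^ m - 1 : ℤ[X]).natDegree = m := by
      have := natDegree_X_pow_sub_C (n := m) (r := (1 : ℤ))
      rwa [C_1] at this
    rw [h5]
    omega

open TensorProduct in
include hζ in
lemma finrank_eigenspace (hg : orderOf (g : ZMod p) = p - 1) (hp5 : 5 ≤ p) (hσ : σ ζ = ζ ^ g)
    (c : ZMod p) :
    Module.finrank (ZMod p) (Module.End.eigenspace
      ((TM σ : MM K →ₗ[ℤ] MM K).baseChange (ZMod p)) c) ≤ 1 := by
  refine (LinearMap.finrank_eigenspace_le _ _).trans ?_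
  rw [LinearMap.charpoly_baseChange]
  apply rootMultiplicity_le_one_of_separable
  have h1 := charpoly_mul hζ hg hp5 hσ (K := K)
  have h2 := congrArg (Polynomial.map (algebraMap ℤ (ZMod p))) h1
  simp only [Polynomial.map_mul, Polynomial.map_sub, Polynomial.map_pow, map_X,
    Polynomial.map_one] at h2
  have h3 : (X ^ ((p - 1) / 2) - 1 : (ZMod p)[X]).Separable := by
    have := separable_X_pow_sub_C (n := (p - 1) / 2) (1 : ZMod p) (by
      intro h
      rw [ZMod.natCast_eq_zero_iff] at h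
      have := Nat.le_of_dvd (by omega) h
      omega) one_ne_zero
    rwa [C_1] at this
  rw [← h2] at h3
  exact h3.of_mul_left

open TensorProduct in
lemma exists_of_tmul_eq_zero (x : MM K) (h : (1 : ZMod p) ⊗ₜ[ℤ] x = 0) : ∃ y : MM K, x = p • y := by
  classical
  set b := Module.Free.chooseBasis ℤ (MM K)
  have h1 : ∀ i, (p : ℤ) ∣ b.repr x i := by
    intro i
    have h2 := congrArg (fun t => (Algebra.TensorProduct.basis (ZMod p) b).repr t i) h
    simp only [Algebra.TensorProduct.basis_repr_tmul, map_zero, Finsupp.coe_zero, Pi.zero_apply,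
      Finsupp.smul_apply, Finsupp.mapRange_apply, smul_eq_mul, one_mul] at h2
    rw [algebraMap_int_eq, eq_intCast, ZMod.intCast_zmod_eq_zero_iff_dvd] at h2
    exact h2
  choose k hk using h1
  refine ⟨∑ i, k i • b i, ?_⟩
  rw [Finset.smul_sum]
  conv_lhs => rw [← b.sum_repr x]
  refine Finset.sum_congr rfl fun i _ => ?_
  rw [hk i, mul_smul, ← natCast_zsmul]

end places

open TensorProduct in
/-- The `c`-eigenspace of the Galois group on `E/μE^p` is at most one-dimensional. -/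
theorem unit_eigenspace (hζ : IsPrimitiveRoot ζ p) (hp5 : 5 ≤ p) {g : ℕ}
    (hg : orderOf (g : ZMod p) = p - 1) {σ : K ≃ₐ[ℚ] K} (hσ : σ ζ = ζ ^ g) (c : ℕ)
    (u v w₁ w₂ : (𝓞 K)ˣ) (hu : σ • (u : 𝓞 K) = (u : 𝓞 K) ^ c * (w₁ : 𝓞 K) ^ p)
    (hv : σ • (v : 𝓞 K) = (v : 𝓞 K) ^ c * (w₂ : 𝓞 K) ^ p)
    (hvn : ∀ t ∈ torsion K, ∀ w : (𝓞 K)ˣ, v ≠ t * w ^ p) :
    ∃ a : ℕ, ∃ t ∈ torsion K, ∃ w : (𝓞 K)ˣ, u = v ^ a * t * w ^ p := by
  have hbase : ∀ (u w : (𝓞 K)ˣ), σ • (u : 𝓞 K) = (u : 𝓞 K) ^ c * (w : 𝓞 K) ^ p →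
      ((TM σ : MM K →ₗ[ℤ] MM K).baseChange (ZMod p)) ((1 : ZMod p) ⊗ₜ[ℤ] cl u) =
        (c : ZMod p) • ((1 : ZMod p) ⊗ₜ[ℤ] cl u) := by
    intro u w h
    have h1 : su σ u = u ^ c * w ^ p := by
      ext1
      push_cast
      exact h
    rw [LinearMap.baseChange_tmul, TM_cl, h1, cl_mul, cl_pow, cl_pow, TensorProduct.tmul_add]
    have h2 : (1 : ZMod p) ⊗ₜ[ℤ] (p • cl w) = 0 := by
      rw [← natCast_zsmul, ← TensorProduct.smul_tmul]
      have : ((p : ℕ) : ℤ) • (1 : ZMod p) = 0 := by simp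
      rw [this, TensorProduct.zero_tmul]
    rw [h2, add_zero, ← natCast_zsmul, ← TensorProduct.smul_tmul, TensorProduct.smul_tmul']
    congr 1
    simp
  have hmem : ∀ (u w : (𝓞 K)ˣ), σ • (u : 𝓞 K) = (u : 𝓞 K) ^ c * (w : 𝓞 K) ^ p →
      ((1 : ZMod p) ⊗ₜ[ℤ] cl u) ∈ Module.End.eigenspace
        ((TM σ : MM K →ₗ[ℤ] MM K).baseChange (ZMod p)) (c : ZMod p) := by
    intro u w h
    rw [Module.End.mem_eigenspace_iff]
    exact hbase u w h
  have h1 := finrank_eigenspace hζ hg hp5 hσ (K := K) (c : ZMod p)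
  rw [finrank_le_one_iff] at h1
  obtain ⟨v0, hv0⟩ := h1
  obtain ⟨α, hα⟩ := hv0 ⟨_, hmem u w₁ hu⟩
  obtain ⟨β, hβ⟩ := hv0 ⟨_, hmem v w₂ hv⟩
  have hα' := congrArg Subtype.val hα
  have hβ' := congrArg Subtype.val hβ
  simp only [Submodule.coe_smul] at hα' hβ'
  have hpow : ∀ y : MM K, ∃ w : (𝓞 K)ˣ, p • y = cl (w ^ p) := by
    intro y
    obtain ⟨w, rfl⟩ := cl_surj y
    exact ⟨w, rfl⟩
  have hcl : ∀ a b : (𝓞 K)ˣ, cl a = cl b → ∃ t ∈ torsion K, a = b * t := by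
    intro a b h
    have h2 : (QuotientGroup.mk b : (𝓞 K)ˣ ⧸ torsion K) = QuotientGroup.mk a := h.symm
    rw [QuotientGroup.eq] at h2
    exact ⟨b⁻¹ * a, h2, by rw [mul_inv_cancel_left]⟩
  have hβ0 : β ≠ 0 := by
    rintro rfl
    rw [zero_smul] at hβ'
    obtain ⟨y, hy⟩ := exists_of_tmul_eq_zero (p := p) (cl v) hβ'.symm
    obtain ⟨w, hw⟩ := hpow y
    rw [hw] at hy
    obtain ⟨t, ht, h2⟩ := hcl _ _ hy
    exact hvn t ht w (by rw [h2, mul_comm])
  set a : ZMod p := α * β⁻¹ with ha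
  have h3 : (1 : ZMod p) ⊗ₜ[ℤ] cl u = a • ((1 : ZMod p) ⊗ₜ[ℤ] cl v) := by
    rw [← hα', ← hβ', smul_smul, ha, mul_assoc, inv_mul_cancel₀ hβ0, mul_one]
  have h4 : (1 : ZMod p) ⊗ₜ[ℤ] (cl u - (a.val : ℕ) • cl v) = 0 := by
    rw [TensorProduct.tmul_sub, h3, ← natCast_zsmul, ← TensorProduct.smul_tmul, TensorProduct.smul_tmul']
    have : ((a.val : ℕ) : ℤ) • (1 : ZMod p) = a • 1 := by simp
    rw [this, sub_self]
  obtain ⟨y, hy⟩ := exists_of_tmul_eq_zero (p := p) _ h4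
  obtain ⟨w, hw⟩ := hpow y
  have h5 : cl u = cl (v ^ a.val * w ^ p) := by
    rw [cl_mul, cl_pow, ← hw, ← hy]; abel
  obtain ⟨t, ht, h6⟩ := hcl _ _ h5
  exact ⟨a.val, t, ht, w, by rw [h6, mul_assoc, mul_comm (w ^ p) t, ← mul_assoc]⟩

end Fermat.Agent.H10.UnitEigen
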