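import Fermat.Agent.H10.Kummer

set_option autoImplicit false

/-!
# Kummer's lemma for `p = 5, 7, 11, 13`: explicit data (generated)
-/

namespace Fermat.Agent.H10

open Polynomial Finset NumberField


/-- coefficients of the logarithmic derivatives, `p = 5` -/
def A5 : Matrix (Fin 2) (Fin 3) ℕ :=
  !![1, 4, 1;
    3, 1, 2]

/-- a right inverse mod `5` -/
def Q5 : Matrix (Fin 3) (Fin 2) ℕ :=
  !![4, 4;
    3, 4;
    0, 0]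

lemma AQ5 : A5.map (Nat.cast : ℕ → ZMod 5) * Q5.map (Nat.cast : ℕ → ZMod 5) = 1 := by
  decide +kernel


lemma cert5_0 {B : Type*} [CommRing B] (x : B) (hx : x ^ 3 = 0) (hp : (5 : B) = 0) :
    (1 : B) = (∑ k : Fin 3, ((A5 0 k : ℕ) : B) * x ^ (k : ℕ)) * (1 + x) := by
  have e1 : (∑ k : Fin 3, ((A5 0 k : ℕ) : B) * x ^ (k : ℕ)) = (1) + (4) * x ^ 1 + (1) * x ^ 2 := by
    simp [Fin.sum_univ_succ, A5]; ring
  rw [e1]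
  linear_combination ((-1)) * hx + ((-1) * x ^ 1 + (-1) * x ^ 2) * hp


lemma cert5_1 {B : Type*} [CommRing B] (x : B) (hx : x ^ 3 = 0) (hp : (5 : B) = 0) :
    ∑ i ∈ range 2, (i : B) * (1 + x) ^ (i - 1) =
      (∑ k : Fin 3, ((A5 1 k : ℕ) : B) * x ^ (k : ℕ)) * ∑ i ∈ range 2, (1 + x) ^ i := by
  have e1 : (∑ k : Fin 3, ((A5 1 k : ℕ) : B) * x ^ (k : ℕ)) = (3) + (1) * x ^ 1 + (2) * x ^ 2 := by
    simp [Fin.sum_univ_succ, A5]; ring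
  have e2 : ∑ i ∈ range 2, (i : B) * (1 + x) ^ (i - 1) = 1 * (1 + x) ^ 0 := by
    simp [Finset.sum_range_succ]
  have e3 : ∑ i ∈ range 2, (1 + x) ^ i = (1 + x) ^ 0 + (1 + x) ^ 1 := by
    simp [Finset.sum_range_succ]
  rw [e1, e2, e3]
  linear_combination ((-2)) * hx + ((-1) + (-1) * x ^ 1 + (-1) * x ^ 2) * hp


theorem kummer_5 {K : Type*} [Field K] [NumberField K] [IsCyclotomicExtension {5} ℚ K]
    {ζ : K} (hζ : IsPrimitiveRoot ζ 5) (u : (𝓞 K)ˣ) (a : ℤ)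
    (h : ((5 : ℕ) : 𝓞 K) ∣ (u : 𝓞 K) - a) : ∃ v : (𝓞 K)ˣ, u = v ^ 5 := by
  have : Fact (Nat.Prime 5) := ⟨by norm_num⟩
  have hp3 : 3 ≤ 5 := by norm_num
  have hz : IsUnit hζ.toInteger := hζ.toInteger_isPrimitiveRoot.isUnit (by norm_num)
  have hg : ∀ j : Fin 2, IsUnit (∑ i ∈ range ((j : ℕ) + 1), hζ.toInteger ^ i) := fun j =>
    hζ.toInteger_isPrimitiveRoot.geom_sum_isUnit (by norm_num)
      (Nat.coprime_of_lt_prime (by omega) (by have := j.2; omega) (by norm_num)).symm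
  let w : Fin 2 → (𝓞 K)ˣ := fun j => if j = 0 then hz.unit else (hg j).unit
  refine kummer_explicit hζ hp3 (m := 2) (n := 3) (by norm_num) (by norm_num) A5 Q5 AQ5
    w ?_ u a h
  intro j
  fin_cases j
  · exact dl_zeta hζ hp3 _ (by simp [w]) _ (cert5_0 _ (by simpa using bx_pow 5) (by simpa using bb_cast 5))
  · exact dl_geom hζ hp3 2 _ (by simp [w]) _ (cert5_1 _ (by simpa using bx_pow 5) (by simpa using bb_cast 5))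


/-- coefficients of the logarithmic derivatives, `p = 7` -/
def A7 : Matrix (Fin 3) (Fin 5) ℕ :=
  !![1, 6, 1, 6, 1;
    4, 5, 1, 3, 2;
    1, 2, 0, 4, 3]

/-- a right inverse mod `7` -/
def Q7 : Matrix (Fin 5) (Fin 3) ℕ :=
  !![0, 3, 3;
    5, 4, 0;
    0, 0, 0;
    1, 6, 3;
    0, 0, 0]

lemma AQ7 : A7.map (Nat.cast : ℕ → ZMod 7) * Q7.map (Nat.cast : ℕ → ZMod 7) = 1 := by
  decide +kernel


lemma cert7_0 {B : Type*} [CommRing B] (x : B) (hx : x ^ 5 = 0) (hp : (7 : B) = 0) :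
    (1 : B) = (∑ k : Fin 5, ((A7 0 k : ℕ) : B) * x ^ (k : ℕ)) * (1 + x) := by
  have e1 : (∑ k : Fin 5, ((A7 0 k : ℕ) : B) * x ^ (k : ℕ)) = (1) + (6) * x ^ 1 + (1) * x ^ 2 + (6) * x ^ 3 + (1) * x ^ 4 := by
    simp [Fin.sum_univ_succ, A7]; ring
  rw [e1]
  linear_combination ((-1)) * hx + ((-1) * x ^ 1 + (-1) * x ^ 2 + (-1) * x ^ 3 + (-1) * x ^ 4) * hp


lemma cert7_1 {B : Type*} [CommRing B] (x : B) (hx : x ^ 5 = 0) (hp : (7 : B) = 0) :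
    ∑ i ∈ range 2, (i : B) * (1 + x) ^ (i - 1) =
      (∑ k : Fin 5, ((A7 1 k : ℕ) : B) * x ^ (k : ℕ)) * ∑ i ∈ range 2, (1 + x) ^ i := by
  have e1 : (∑ k : Fin 5, ((A7 1 k : ℕ) : B) * x ^ (k : ℕ)) = (4) + (5) * x ^ 1 + (1) * x ^ 2 + (3) * x ^ 3 + (2) * x ^ 4 := by
    simp [Fin.sum_univ_succ, A7]; ring
  have e2 : ∑ i ∈ range 2, (i : B) * (1 + x) ^ (i - 1) = 1 * (1 + x) ^ 0 := by
    simp [Finset.sum_range_succ]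
  have e3 : ∑ i ∈ range 2, (1 + x) ^ i = (1 + x) ^ 0 + (1 + x) ^ 1 := by
    simp [Finset.sum_range_succ]
  rw [e1, e2, e3]
  linear_combination ((-2)) * hx + ((-1) + (-2) * x ^ 1 + (-1) * x ^ 2 + (-1) * x ^ 3 + (-1) * x ^ 4) * hp


lemma cert7_2 {B : Type*} [CommRing B] (x : B) (hx : x ^ 5 = 0) (hp : (7 : B) = 0) :
    ∑ i ∈ range 3, (i : B) * (1 + x) ^ (i - 1) =
      (∑ k : Fin 5, ((A7 2 k : ℕ) : B) * x ^ (k : ℕ)) * ∑ i ∈ range 3, (1 + x) ^ i := by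
  have e1 : (∑ k : Fin 5, ((A7 2 k : ℕ) : B) * x ^ (k : ℕ)) = (1) + (2) * x ^ 1 + (4) * x ^ 3 + (3) * x ^ 4 := by
    simp [Fin.sum_univ_succ, A7]; ring
  have e2 : ∑ i ∈ range 3, (i : B) * (1 + x) ^ (i - 1) = 1 * (1 + x) ^ 0 + 2 * (1 + x) ^ 1 := by
    simp [Finset.sum_range_succ]
  have e3 : ∑ i ∈ range 3, (1 + x) ^ i = (1 + x) ^ 0 + (1 + x) ^ 1 + (1 + x) ^ 2 := by
    simp [Finset.sum_range_succ]
  rw [e1, e2, e3]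
  linear_combination ((-13) + (-3) * x ^ 1) * hx + ((-1) * x ^ 1 + (-1) * x ^ 2 + (-2) * x ^ 3 + (-3) * x ^ 4) * hp


theorem kummer_7 {K : Type*} [Field K] [NumberField K] [IsCyclotomicExtension {7} ℚ K]
    {ζ : K} (hζ : IsPrimitiveRoot ζ 7) (u : (𝓞 K)ˣ) (a : ℤ)
    (h : ((7 : ℕ) : 𝓞 K) ∣ (u : 𝓞 K) - a) : ∃ v : (𝓞 K)ˣ, u = v ^ 7 := by
  have : Fact (Nat.Prime 7) := ⟨by norm_num⟩
  have hp3 : 3 ≤ 7 := by norm_num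
  have hz : IsUnit hζ.toInteger := hζ.toInteger_isPrimitiveRoot.isUnit (by norm_num)
  have hg : ∀ j : Fin 3, IsUnit (∑ i ∈ range ((j : ℕ) + 1), hζ.toInteger ^ i) := fun j =>
    hζ.toInteger_isPrimitiveRoot.geom_sum_isUnit (by norm_num)
      (Nat.coprime_of_lt_prime (by omega) (by have := j.2; omega) (by norm_num)).symm
  let w : Fin 3 → (𝓞 K)ˣ := fun j => if j = 0 then hz.unit else (hg j).unit
  refine kummer_explicit hζ hp3 (m := 3) (n := 5) (by norm_num) (by norm_num) A7 Q7 AQ7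
    w ?_ u a h
  intro j
  fin_cases j
  · exact dl_zeta hζ hp3 _ (by simp [w]) _ (cert7_0 _ (by simpa using bx_pow 7) (by simpa using bb_cast 7))
  · exact dl_geom hζ hp3 2 _ (by simp [w]) _ (cert7_1 _ (by simpa using bx_pow 7) (by simpa using bb_cast 7))
  · exact dl_geom hζ hp3 3 _ (by simp [w]) _ (cert7_2 _ (by simpa using bx_pow 7) (by simpa using bb_cast 7))


/-- coefficients of the logarithmic derivatives, `p = 11` -/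
def A11 : Matrix (Fin 5) (Fin 9) ℕ :=
  !![1, 10, 1, 10, 1, 10, 1, 10, 1;
    6, 8, 7, 2, 10, 6, 8, 7, 2;
    1, 7, 0, 5, 6, 7, 2, 3, 0;
    7, 8, 1, 8, 7, 6, 4, 0, 0;
    2, 0, 10, 3, 0, 6, 5, 6, 5]

/-- a right inverse mod `11` -/
def Q11 : Matrix (Fin 9) (Fin 5) ℕ :=
  !![9, 6, 7, 0, 2;
    1, 8, 7, 4, 2;
    0, 0, 0, 0, 0;
    9, 0, 1, 3, 1;
    0, 0, 0, 0, 0;
    0, 8, 5, 0, 1;
    0, 0, 0, 0, 0;
    9, 1, 5, 4, 9;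
    0, 0, 0, 0, 0]

lemma AQ11 : A11.map (Nat.cast : ℕ → ZMod 11) * Q11.map (Nat.cast : ℕ → ZMod 11) = 1 := by
  decide +kernel


lemma cert11_0 {B : Type*} [CommRing B] (x : B) (hx : x ^ 9 = 0) (hp : (11 : B) = 0) :
    (1 : B) = (∑ k : Fin 9, ((A11 0 k : ℕ) : B) * x ^ (k : ℕ)) * (1 + x) := by
  have e1 : (∑ k : Fin 9, ((A11 0 k : ℕ) : B) * x ^ (k : ℕ)) = (1) + (10) * x ^ 1 + (1) * x ^ 2 + (10) * x ^ 3 + (1) * x ^ 4 + (10) * x ^ 5 + (1) * x ^ 6 + (10) * x ^ 7 + (1) * x ^ 8 := by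
    simp [Fin.sum_univ_succ, A11]; ring
  rw [e1]
  linear_combination ((-1)) * hx + ((-1) * x ^ 1 + (-1) * x ^ 2 + (-1) * x ^ 3 + (-1) * x ^ 4 + (-1) * x ^ 5 + (-1) * x ^ 6 + (-1) * x ^ 7 + (-1) * x ^ 8) * hp


lemma cert11_1 {B : Type*} [CommRing B] (x : B) (hx : x ^ 9 = 0) (hp : (11 : B) = 0) :
    ∑ i ∈ range 2, (i : B) * (1 + x) ^ (i - 1) =
      (∑ k : Fin 9, ((A11 1 k : ℕ) : B) * x ^ (k : ℕ)) * ∑ i ∈ range 2, (1 + x) ^ i := by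
  have e1 : (∑ k : Fin 9, ((A11 1 k : ℕ) : B) * x ^ (k : ℕ)) = (6) + (8) * x ^ 1 + (7) * x ^ 2 + (2) * x ^ 3 + (10) * x ^ 4 + (6) * x ^ 5 + (8) * x ^ 6 + (7) * x ^ 7 + (2) * x ^ 8 := by
    simp [Fin.sum_univ_succ, A11]; ring
  have e2 : ∑ i ∈ range 2, (i : B) * (1 + x) ^ (i - 1) = 1 * (1 + x) ^ 0 := by
    simp [Finset.sum_range_succ]
  have e3 : ∑ i ∈ range 2, (1 + x) ^ i = (1 + x) ^ 0 + (1 + x) ^ 1 := by
    simp [Finset.sum_range_succ]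
  rw [e1, e2, e3]
  linear_combination ((-2)) * hx + ((-1) + (-2) * x ^ 1 + (-2) * x ^ 2 + (-1) * x ^ 3 + (-2) * x ^ 4 + (-2) * x ^ 5 + (-2) * x ^ 6 + (-2) * x ^ 7 + (-1) * x ^ 8) * hp


lemma cert11_2 {B : Type*} [CommRing B] (x : B) (hx : x ^ 9 = 0) (hp : (11 : B) = 0) :
    ∑ i ∈ range 3, (i : B) * (1 + x) ^ (i - 1) =
      (∑ k : Fin 9, ((A11 2 k : ℕ) : B) * x ^ (k : ℕ)) * ∑ i ∈ range 3, (1 + x) ^ i := by
  have e1 : (∑ k : Fin 9, ((A11 2 k : ℕ) : B) * x ^ (k : ℕ)) = (1) + (7) * x ^ 1 + (5) * x ^ 3 + (6) * x ^ 4 + (7) * x ^ 5 + (2) * x ^ 6 + (3) * x ^ 7 := by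
    simp [Fin.sum_univ_succ, A11]; ring
  have e2 : ∑ i ∈ range 3, (i : B) * (1 + x) ^ (i - 1) = 1 * (1 + x) ^ 0 + 2 * (1 + x) ^ 1 := by
    simp [Finset.sum_range_succ]
  have e3 : ∑ i ∈ range 3, (1 + x) ^ i = (1 + x) ^ 0 + (1 + x) ^ 1 + (1 + x) ^ 2 := by
    simp [Finset.sum_range_succ]
  rw [e1, e2, e3]
  linear_combination ((-3)) * hx + ((-2) * x ^ 1 + (-2) * x ^ 2 + (-2) * x ^ 3 + (-3) * x ^ 4 + (-4) * x ^ 5 + (-3) * x ^ 6 + (-2) * x ^ 7 + (-1) * x ^ 8) * hp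


lemma cert11_3 {B : Type*} [CommRing B] (x : B) (hx : x ^ 9 = 0) (hp : (11 : B) = 0) :
    ∑ i ∈ range 4, (i : B) * (1 + x) ^ (i - 1) =
      (∑ k : Fin 9, ((A11 3 k : ℕ) : B) * x ^ (k : ℕ)) * ∑ i ∈ range 4, (1 + x) ^ i := by
  have e1 : (∑ k : Fin 9, ((A11 3 k : ℕ) : B) * x ^ (k : ℕ)) = (7) + (8) * x ^ 1 + (1) * x ^ 2 + (8) * x ^ 3 + (7) * x ^ 4 + (6) * x ^ 5 + (4) * x ^ 6 := by
    simp [Fin.sum_univ_succ, A11]; ring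
  have e2 : ∑ i ∈ range 4, (i : B) * (1 + x) ^ (i - 1) = 1 * (1 + x) ^ 0 + 2 * (1 + x) ^ 1 + 3 * (1 + x) ^ 2 := by
    simp [Finset.sum_range_succ]
  have e3 : ∑ i ∈ range 4, (1 + x) ^ i = (1 + x) ^ 0 + (1 + x) ^ 1 + (1 + x) ^ 2 + (1 + x) ^ 3 := by
    simp [Finset.sum_range_succ]
  rw [e1, e2, e3]
  linear_combination ((-4)) * hx + ((-2) + (-6) * x ^ 1 + (-7) * x ^ 2 + (-7) * x ^ 3 + (-8) * x ^ 4 + (-9) * x ^ 5 + (-8) * x ^ 6 + (-5) * x ^ 7 + (-2) * x ^ 8) * hp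


lemma cert11_4 {B : Type*} [CommRing B] (x : B) (hx : x ^ 9 = 0) (hp : (11 : B) = 0) :
    ∑ i ∈ range 5, (i : B) * (1 + x) ^ (i - 1) =
      (∑ k : Fin 9, ((A11 4 k : ℕ) : B) * x ^ (k : ℕ)) * ∑ i ∈ range 5, (1 + x) ^ i := by
  have e1 : (∑ k : Fin 9, ((A11 4 k : ℕ) : B) * x ^ (k : ℕ)) = (2) + (10) * x ^ 2 + (3) * x ^ 3 + (6) * x ^ 5 + (5) * x ^ 6 + (6) * x ^ 7 + (5) * x ^ 8 := by
    simp [Fin.sum_univ_succ, A11]; ring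
  have e2 : ∑ i ∈ range 5, (i : B) * (1 + x) ^ (i - 1) = 1 * (1 + x) ^ 0 + 2 * (1 + x) ^ 1 + 3 * (1 + x) ^ 2 + 4 * (1 + x) ^ 3 := by
    simp [Finset.sum_range_succ]
  have e3 : ∑ i ∈ range 5, (1 + x) ^ i = (1 + x) ^ 0 + (1 + x) ^ 1 + (1 + x) ^ 2 + (1 + x) ^ 3 + (1 + x) ^ 4 := by
    simp [Finset.sum_range_succ]
  rw [e1, e2, e3]
  linear_combination ((-141) + (-85) * x ^ 1 + (-31) * x ^ 2 + (-5) * x ^ 3) * hx + ((-5) * x ^ 2 + (-11) * x ^ 3 + (-12) * x ^ 4 + (-10) * x ^ 5 + (-10) * x ^ 6 + (-13) * x ^ 7 + (-15) * x ^ 8) * hp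


theorem kummer_11 {K : Type*} [Field K] [NumberField K] [IsCyclotomicExtension {11} ℚ K]
    {ζ : K} (hζ : IsPrimitiveRoot ζ 11) (u : (𝓞 K)ˣ) (a : ℤ)
    (h : ((11 : ℕ) : 𝓞 K) ∣ (u : 𝓞 K) - a) : ∃ v : (𝓞 K)ˣ, u = v ^ 11 := by
  have : Fact (Nat.Prime 11) := ⟨by norm_num⟩
  have hp3 : 3 ≤ 11 := by norm_num
  have hz : IsUnit hζ.toInteger := hζ.toInteger_isPrimitiveRoot.isUnit (by norm_num)
  have hg : ∀ j : Fin 5, IsUnit (∑ i ∈ range ((j : ℕ) + 1), hζ.toInteger ^ i) := fun j =>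
    hζ.toInteger_isPrimitiveRoot.geom_sum_isUnit (by norm_num)
      (Nat.coprime_of_lt_prime (by omega) (by have := j.2; omega) (by norm_num)).symm
  let w : Fin 5 → (𝓞 K)ˣ := fun j => if j = 0 then hz.unit else (hg j).unit
  refine kummer_explicit hζ hp3 (m := 5) (n := 9) (by norm_num) (by norm_num) A11 Q11 AQ11
    w ?_ u a h
  intro j
  fin_cases j
  · exact dl_zeta hζ hp3 _ (by simp [w]) _ (cert11_0 _ (by simpa using bx_pow 11) (by simpa using bb_cast 11))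
  · exact dl_geom hζ hp3 2 _ (by simp [w]) _ (cert11_1 _ (by simpa using bx_pow 11) (by simpa using bb_cast 11))
  · exact dl_geom hζ hp3 3 _ (by simp [w]) _ (cert11_2 _ (by simpa using bx_pow 11) (by simpa using bb_cast 11))
  · exact dl_geom hζ hp3 4 _ (by simp [w]) _ (cert11_3 _ (by simpa using bx_pow 11) (by simpa using bb_cast 11))
  · exact dl_geom hζ hp3 5 _ (by simp [w]) _ (cert11_4 _ (by simpa using bx_pow 11) (by simpa using bb_cast 11))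


/-- coefficients of the logarithmic derivatives, `p = 13` -/
def A13 : Matrix (Fin 6) (Fin 11) ℕ :=
  !![1, 12, 1, 12, 1, 12, 1, 12, 1, 12, 1;
    7, 3, 5, 4, 11, 1, 6, 10, 8, 9, 2;
    1, 4, 0, 3, 10, 2, 12, 9, 0, 10, 3;
    8, 3, 11, 11, 1, 1, 11, 5, 4, 9, 4;
    2, 0, 12, 6, 0, 2, 11, 4, 7, 3, 5;
    9, 8, 3, 8, 9, 1, 6, 7, 6, 7, 6]

/-- a right inverse mod `13` -/
def Q13 : Matrix (Fin 11) (Fin 6) ℕ :=
  !![1, 10, 12, 7, 4, 4;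
    3, 2, 12, 11, 2, 1;
    0, 0, 0, 0, 0, 0;
    3, 10, 2, 9, 2, 2;
    0, 0, 0, 0, 0, 0;
    9, 7, 4, 9, 7, 11;
    0, 0, 0, 0, 0, 0;
    7, 11, 0, 6, 1, 1;
    0, 0, 0, 0, 0, 0;
    4, 6, 7, 11, 5, 2;
    0, 0, 0, 0, 0, 0]

lemma AQ13 : A13.map (Nat.cast : ℕ → ZMod 13) * Q13.map (Nat.cast : ℕ → ZMod 13) = 1 := by
  decide +kernel


lemma cert13_0 {B : Type*} [CommRing B] (x : B) (hx : x ^ 11 = 0) (hp : (13 : B) = 0) :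
    (1 : B) = (∑ k : Fin 11, ((A13 0 k : ℕ) : B) * x ^ (k : ℕ)) * (1 + x) := by
  have e1 : (∑ k : Fin 11, ((A13 0 k : ℕ) : B) * x ^ (k : ℕ)) = (1) + (12) * x ^ 1 + (1) * x ^ 2 + (12) * x ^ 3 + (1) * x ^ 4 + (12) * x ^ 5 + (1) * x ^ 6 + (12) * x ^ 7 + (1) * x ^ 8 + (12) * x ^ 9 + (1) * x ^ 10 := by
    simp [Fin.sum_univ_succ, A13]; ring
  rw [e1]
  linear_combination ((-1)) * hx + ((-1) * x ^ 1 + (-1) * x ^ 2 + (-1) * x ^ 3 + (-1) * x ^ 4 + (-1) * x ^ 5 + (-1) * x ^ 6 + (-1) * x ^ 7 + (-1) * x ^ 8 + (-1) * x ^ 9 + (-1) * x ^ 10) * hp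


lemma cert13_1 {B : Type*} [CommRing B] (x : B) (hx : x ^ 11 = 0) (hp : (13 : B) = 0) :
    ∑ i ∈ range 2, (i : B) * (1 + x) ^ (i - 1) =
      (∑ k : Fin 11, ((A13 1 k : ℕ) : B) * x ^ (k : ℕ)) * ∑ i ∈ range 2, (1 + x) ^ i := by
  have e1 : (∑ k : Fin 11, ((A13 1 k : ℕ) : B) * x ^ (k : ℕ)) = (7) + (3) * x ^ 1 + (5) * x ^ 2 + (4) * x ^ 3 + (11) * x ^ 4 + (1) * x ^ 5 + (6) * x ^ 6 + (10) * x ^ 7 + (8) * x ^ 8 + (9) * x ^ 9 + (2) * x ^ 10 := by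
    simp [Fin.sum_univ_succ, A13]; ring
  have e2 : ∑ i ∈ range 2, (i : B) * (1 + x) ^ (i - 1) = 1 * (1 + x) ^ 0 := by
    simp [Finset.sum_range_succ]
  have e3 : ∑ i ∈ range 2, (1 + x) ^ i = (1 + x) ^ 0 + (1 + x) ^ 1 := by
    simp [Finset.sum_range_succ]
  rw [e1, e2, e3]
  linear_combination ((-2)) * hx + ((-1) + (-1) * x ^ 1 + (-1) * x ^ 2 + (-1) * x ^ 3 + (-2) * x ^ 4 + (-1) * x ^ 5 + (-1) * x ^ 6 + (-2) * x ^ 7 + (-2) * x ^ 8 + (-2) * x ^ 9 + (-1) * x ^ 10) * hp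


lemma cert13_2 {B : Type*} [CommRing B] (x : B) (hx : x ^ 11 = 0) (hp : (13 : B) = 0) :
    ∑ i ∈ range 3, (i : B) * (1 + x) ^ (i - 1) =
      (∑ k : Fin 11, ((A13 2 k : ℕ) : B) * x ^ (k : ℕ)) * ∑ i ∈ range 3, (1 + x) ^ i := by
  have e1 : (∑ k : Fin 11, ((A13 2 k : ℕ) : B) * x ^ (k : ℕ)) = (1) + (4) * x ^ 1 + (3) * x ^ 3 + (10) * x ^ 4 + (2) * x ^ 5 + (12) * x ^ 6 + (9) * x ^ 7 + (10) * x ^ 9 + (3) * x ^ 10 := by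
    simp [Fin.sum_univ_succ, A13]; ring
  have e2 : ∑ i ∈ range 3, (i : B) * (1 + x) ^ (i - 1) = 1 * (1 + x) ^ 0 + 2 * (1 + x) ^ 1 := by
    simp [Finset.sum_range_succ]
  have e3 : ∑ i ∈ range 3, (1 + x) ^ i = (1 + x) ^ 0 + (1 + x) ^ 1 + (1 + x) ^ 2 := by
    simp [Finset.sum_range_succ]
  rw [e1, e2, e3]
  linear_combination ((-19) + (-3) * x ^ 1) * hx + ((-1) * x ^ 1 + (-1) * x ^ 2 + (-1) * x ^ 3 + (-3) * x ^ 4 + (-3) * x ^ 5 + (-4) * x ^ 6 + (-5) * x ^ 7 + (-3) * x ^ 8 + (-3) * x ^ 9 + (-3) * x ^ 10) * hp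


lemma cert13_3 {B : Type*} [CommRing B] (x : B) (hx : x ^ 11 = 0) (hp : (13 : B) = 0) :
    ∑ i ∈ range 4, (i : B) * (1 + x) ^ (i - 1) =
      (∑ k : Fin 11, ((A13 3 k : ℕ) : B) * x ^ (k : ℕ)) * ∑ i ∈ range 4, (1 + x) ^ i := by
  have e1 : (∑ k : Fin 11, ((A13 3 k : ℕ) : B) * x ^ (k : ℕ)) = (8) + (3) * x ^ 1 + (11) * x ^ 2 + (11) * x ^ 3 + (1) * x ^ 4 + (1) * x ^ 5 + (11) * x ^ 6 + (5) * x ^ 7 + (4) * x ^ 8 + (9) * x ^ 9 + (4) * x ^ 10 := by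
    simp [Fin.sum_univ_succ, A13]; ring
  have e2 : ∑ i ∈ range 4, (i : B) * (1 + x) ^ (i - 1) = 1 * (1 + x) ^ 0 + 2 * (1 + x) ^ 1 + 3 * (1 + x) ^ 2 := by
    simp [Finset.sum_range_succ]
  have e3 : ∑ i ∈ range 4, (1 + x) ^ i = (1 + x) ^ 0 + (1 + x) ^ 1 + (1 + x) ^ 2 + (1 + x) ^ 3 := by
    simp [Finset.sum_range_succ]
  rw [e1, e2, e3]
  linear_combination ((-64) + (-25) * x ^ 1 + (-4) * x ^ 2) * hx + ((-2) + (-4) * x ^ 1 + (-7) * x ^ 2 + (-10) * x ^ 3 + (-9) * x ^ 4 + (-5) * x ^ 5 + (-5) * x ^ 6 + (-7) * x ^ 7 + (-7) * x ^ 8 + (-7) * x ^ 9 + (-7) * x ^ 10) * hp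


lemma cert13_4 {B : Type*} [CommRing B] (x : B) (hx : x ^ 11 = 0) (hp : (13 : B) = 0) :
    ∑ i ∈ range 5, (i : B) * (1 + x) ^ (i - 1) =
      (∑ k : Fin 11, ((A13 4 k : ℕ) : B) * x ^ (k : ℕ)) * ∑ i ∈ range 5, (1 + x) ^ i := by
  have e1 : (∑ k : Fin 11, ((A13 4 k : ℕ) : B) * x ^ (k : ℕ)) = (2) + (12) * x ^ 2 + (6) * x ^ 3 + (2) * x ^ 5 + (11) * x ^ 6 + (4) * x ^ 7 + (7) * x ^ 8 + (3) * x ^ 9 + (5) * x ^ 10 := by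
    simp [Fin.sum_univ_succ, A13]; ring
  have e2 : ∑ i ∈ range 5, (i : B) * (1 + x) ^ (i - 1) = 1 * (1 + x) ^ 0 + 2 * (1 + x) ^ 1 + 3 * (1 + x) ^ 2 + 4 * (1 + x) ^ 3 := by
    simp [Finset.sum_range_succ]
  have e3 : ∑ i ∈ range 5, (1 + x) ^ i = (1 + x) ^ 0 + (1 + x) ^ 1 + (1 + x) ^ 2 + (1 + x) ^ 3 + (1 + x) ^ 4 := by
    simp [Finset.sum_range_succ]
  rw [e1, e2, e3]
  linear_combination ((-119) + (-72) * x ^ 1 + (-28) * x ^ 2 + (-5) * x ^ 3) * hx + ((-5) * x ^ 2 + (-12) * x ^ 3 + (-14) * x ^ 4 + (-10) * x ^ 5 + (-9) * x ^ 6 + (-12) * x ^ 7 + (-15) * x ^ 8 + (-14) * x ^ 9 + (-12) * x ^ 10) * hp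


lemma cert13_5 {B : Type*} [CommRing B] (x : B) (hx : x ^ 11 = 0) (hp : (13 : B) = 0) :
    ∑ i ∈ range 6, (i : B) * (1 + x) ^ (i - 1) =
      (∑ k : Fin 11, ((A13 5 k : ℕ) : B) * x ^ (k : ℕ)) * ∑ i ∈ range 6, (1 + x) ^ i := by
  have e1 : (∑ k : Fin 11, ((A13 5 k : ℕ) : B) * x ^ (k : ℕ)) = (9) + (8) * x ^ 1 + (3) * x ^ 2 + (8) * x ^ 3 + (9) * x ^ 4 + (1) * x ^ 5 + (6) * x ^ 6 + (7) * x ^ 7 + (6) * x ^ 8 + (7) * x ^ 9 + (6) * x ^ 10 := by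
    simp [Fin.sum_univ_succ, A13]; ring
  have e2 : ∑ i ∈ range 6, (i : B) * (1 + x) ^ (i - 1) = 1 * (1 + x) ^ 0 + 2 * (1 + x) ^ 1 + 3 * (1 + x) ^ 2 + 4 * (1 + x) ^ 3 + 5 * (1 + x) ^ 4 := by
    simp [Finset.sum_range_succ]
  have e3 : ∑ i ∈ range 6, (1 + x) ^ i = (1 + x) ^ 0 + (1 + x) ^ 1 + (1 + x) ^ 2 + (1 + x) ^ 3 + (1 + x) ^ 4 + (1 + x) ^ 5 := by
    simp [Finset.sum_range_succ]
  rw [e1, e2, e3]
  linear_combination ((-368) + (-268) * x ^ 1 + (-138) * x ^ 2 + (-43) * x ^ 3 + (-6) * x ^ 4) * hx + ((-3) + (-11) * x ^ 1 + (-21) * x ^ 2 + (-28) * x ^ 3 + (-31) * x ^ 4 + (-31) * x ^ 5 + (-29) * x ^ 6 + (-26) * x ^ 7 + (-26) * x ^ 8 + (-29) * x ^ 9 + (-31) * x ^ 10) * hp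


theorem kummer_13 {K : Type*} [Field K] [NumberField K] [IsCyclotomicExtension {13} ℚ K]
    {ζ : K} (hζ : IsPrimitiveRoot ζ 13) (u : (𝓞 K)ˣ) (a : ℤ)
    (h : ((13 : ℕ) : 𝓞 K) ∣ (u : 𝓞 K) - a) : ∃ v : (𝓞 K)ˣ, u = v ^ 13 := by
  have : Fact (Nat.Prime 13) := ⟨by norm_num⟩
  have hp3 : 3 ≤ 13 := by norm_num
  have hz : IsUnit hζ.toInteger := hζ.toInteger_isPrimitiveRoot.isUnit (by norm_num)
  have hg : ∀ j : Fin 6, IsUnit (∑ i ∈ range ((j : ℕ) + 1), hζ.toInteger ^ i) := fun j =>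
    hζ.toInteger_isPrimitiveRoot.geom_sum_isUnit (by norm_num)
      (Nat.coprime_of_lt_prime (by omega) (by have := j.2; omega) (by norm_num)).symm
  let w : Fin 6 → (𝓞 K)ˣ := fun j => if j = 0 then hz.unit else (hg j).unit
  refine kummer_explicit hζ hp3 (m := 6) (n := 11) (by norm_num) (by norm_num) A13 Q13 AQ13
    w ?_ u a h
  intro j
  fin_cases j
  · exact dl_zeta hζ hp3 _ (by simp [w]) _ (cert13_0 _ (by simpa using bx_pow 13) (by simpa using bb_cast 13))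
  · exact dl_geom hζ hp3 2 _ (by simp [w]) _ (cert13_1 _ (by simpa using bx_pow 13) (by simpa using bb_cast 13))
  · exact dl_geom hζ hp3 3 _ (by simp [w]) _ (cert13_2 _ (by simpa using bx_pow 13) (by simpa using bb_cast 13))
  · exact dl_geom hζ hp3 4 _ (by simp [w]) _ (cert13_3 _ (by simpa using bx_pow 13) (by simpa using bb_cast 13))
  · exact dl_geom hζ hp3 5 _ (by simp [w]) _ (cert13_4 _ (by simpa using bx_pow 13) (by simpa using bb_cast 13))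
  · exact dl_geom hζ hp3 6 _ (by simp [w]) _ (cert13_5 _ (by simpa using bx_pow 13) (by simpa using bb_cast 13))


end Fermat.Agent.H10
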