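import Fermat.Agent.H10.CaseII
import Fermat.Agent.H10.KummerExplicit
import Fermat.Agent.H11_CaseI
import Fermat.Agent.H11_PID11
import Fermat.Agent.H11_PID13

set_option autoImplicit false

/-!
# Fermat's Last Theorem for the exponents `5, 7, 11, 13`
-/

namespace Fermat.Agent.H10

open Polynomial Finset NumberField

theorem cycData {p : ℕ} [hp : Fact p.Prime] (hp3 : 3 ≤ p) {K : Type*} [Field K] [NumberField K]
    [NeZero p] [IsCyclotomicExtension {p} ℚ K] {ζ : K} (hζ : IsPrimitiveRoot ζ p)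
    (hk : ∀ (u : (𝓞 K)ˣ) (a : ℤ), (p : 𝓞 K) ∣ (u : 𝓞 K) - a → ∃ v : (𝓞 K)ˣ, u = v ^ p) :
    CycData (𝓞 K) p hζ.toInteger where
  pprime := hp.out
  p3 := hp3
  prim := hζ.toInteger_isPrimitiveRoot
  lprime := hζ.zeta_sub_one_prime'
  residue x := by
    obtain ⟨f, rfl⟩ := hζ.integralPowerBasis.exists_eq_aeval' x
    rw [IsPrimitiveRoot.integralPowerBasis_gen]
    refine ⟨f.eval 1, ?_⟩
    have h1 : aeval hζ.toInteger f = (f.map (Int.castRingHom (𝓞 K))).eval hζ.toInteger := by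
      rw [aeval_def, eval_map]; rfl
    have h2 : ((f.eval 1 : ℤ) : 𝓞 K) = (f.map (Int.castRingHom (𝓞 K))).eval 1 := by
      rw [Polynomial.eval_map, Polynomial.eval₂_at_one]
      rfl
    rw [h1, h2]
    exact Polynomial.sub_dvd_eval_sub _ _ _
  assoc := (IsCyclotomicExtension.Rat.associated_zeta_sub_one_pow_prime p hζ).symm
  kummer := hk

theorem CycData.caseII_int {R : Type*} [CommRing R] [IsDomain R] [IsBezout R] {p : ℕ} {ζ : R}
    (D : CycData R p ζ) {x y z : ℤ} (hxy : IsCoprime x y) (hpz : (p : ℤ) ∣ z) (hz : z ≠ 0)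
    (h : x ^ p + y ^ p = z ^ p) : False := by
  have hpZ : Prime (p : ℤ) := Nat.prime_iff_prime_int.mp D.pprime
  have hp3 := D.p3
  have hfin : FiniteMultiplicity (p : ℤ) z := by
    apply FiniteMultiplicity.of_prime_left hpZ hz
  obtain ⟨z', hz', hz'd⟩ := hfin.exists_eq_pow_mul_and_not_dvd
  set k := multiplicity (p : ℤ) z with hk
  have hk1 : 1 ≤ k := by
    rcases Nat.eq_zero_or_pos k with h0 | h0
    · exfalso
      rw [h0, pow_zero, one_mul] at hz'
      exact hz'd (hz' ▸ hpz)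
    · exact h0
  have hy : ¬ (p : ℤ) ∣ y := by
    intro hy
    have hx : (p : ℤ) ∣ x ^ p := by
      have : x ^ p = z ^ p - y ^ p := by rw [← h]; ring
      rw [this]
      exact dvd_sub (hpz.trans (dvd_pow_self _ (by omega))) (hy.trans (dvd_pow_self _ (by omega)))
    exact hpZ.not_isUnit (hxy.isUnit_of_dvd' (hpZ.dvd_of_dvd_pow hx) hy)
  obtain ⟨u, hu⟩ := D.assoc.symm
  have h1 : (x : R) ^ p + (y : R) ^ p = ((u ^ (k * p) : Rˣ) : R) *
      ((ζ - 1) ^ (((p - 1) * k - 1) + 1) * (z' : R)) ^ p := by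
    have h2 : ((x ^ p + y ^ p : ℤ) : R) = ((z ^ p : ℤ) : R) := by rw [h]
    push_cast at h2
    rw [h2, hz']
    have h3 : (p - 1) * k - 1 + 1 = (p - 1) * k := by
      have : 1 ≤ (p - 1) * k := Nat.one_le_iff_ne_zero.mpr (by
        have : p - 1 ≠ 0 := by omega
        positivity)
      omega
    rw [h3]
    push_cast
    rw [← hu]
    ring
  refine D.no_solution _ (x : R) (y : R) (z' : R) _ ?_ ?_ ?_ h1
  · simpa using hxy.map (Int.castRingHom R)
  · exact fun h => hy (D.int_dvd h)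
  · exact fun h => hz'd (D.int_dvd h)

theorem flt_of_cycData {R : Type*} [CommRing R] [IsDomain R] [IsBezout R] {p : ℕ} {ζ : R}
    (D : CycData R p ζ)
    (caseI : ∀ x y z : ℤ, x ^ p + y ^ p + z ^ p = 0 → IsCoprime x y → IsCoprime y z →
      IsCoprime z x → (p : ℤ) ∣ x * y * z)
    {a b c : ℤ} (ha : a ≠ 0) (hb : b ≠ 0) (hc : c ≠ 0) (hab : IsCoprime a b)
    (hbc : IsCoprime b c) (hca : IsCoprime c a)
    (h : a ^ p + b ^ p = c ^ p) : False := by
  have hp3 := D.p3
  have hodd : Odd p := D.pprime.odd_of_ne_two (by omega)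
  have hpZ : Prime (p : ℤ) := Nat.prime_iff_prime_int.mp D.pprime
  have h1 : a ^ p + b ^ p + (-c) ^ p = 0 := by rw [hodd.neg_pow, h]; ring
  have h2 := caseI a b (-c) h1 hab hbc.neg_right hca.neg_left
  rcases hpZ.dvd_or_dvd h2 with h3 | h3
  · rcases hpZ.dvd_or_dvd h3 with h4 | h4
    · refine D.caseII_int (x := b) (y := -c) (z := -a) hbc.neg_right ?_ (neg_ne_zero.mpr ha) ?_
      · exact (dvd_neg).mpr h4
      · rw [hodd.neg_pow, hodd.neg_pow, ← h]; ring
    · refine D.caseII_int (x := a) (y := -c) (z := -b) hca.symm.neg_right ?_ (neg_ne_zero.mpr hb) ?_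
      · exact (dvd_neg).mpr h4
      · rw [hodd.neg_pow, hodd.neg_pow, ← h]; ring
  · exact D.caseII_int hab ((dvd_neg).mp h3) hc h

/-- Fermat's Last Theorem for `p ∈ {5, 7, 11, 13}`, coprime integer form. -/
theorem flt_small (p : ℕ) (hp : p = 5 ∨ p = 7 ∨ p = 11 ∨ p = 13)
    {a b c : ℤ} (ha : a ≠ 0) (hb : b ≠ 0) (hc : c ≠ 0) (hab : IsCoprime a b)
    (hbc : IsCoprime b c) (hca : IsCoprime c a) (h : a ^ p + b ^ p = c ^ p) : False := by
  have hI := fun x y z h1 h2 h3 h4 => Fermat.Agent.H11.caseI p hp x y z h1 h2 h3 h4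
  rcases hp with rfl | rfl | rfl | rfl
  · have : Fact (Nat.Prime 5) := ⟨by norm_num⟩
    have : IsCyclotomicExtension {5} ℚ (CyclotomicField 5 ℚ) :=
      CyclotomicField.isCyclotomicExtension 5 ℚ
    have hpid := IsCyclotomicExtension.Rat.five_pid (CyclotomicField 5 ℚ)
    exact flt_of_cycData (cycData (by norm_num)
      (IsCyclotomicExtension.zeta_spec 5 ℚ (CyclotomicField 5 ℚ)) (kummer_5
        (IsCyclotomicExtension.zeta_spec 5 ℚ (CyclotomicField 5 ℚ)))) hI ha hb hc hab hbc hca h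
  · have : Fact (Nat.Prime 7) := ⟨by norm_num⟩
    have : IsCyclotomicExtension {7} ℚ (CyclotomicField 7 ℚ) :=
      CyclotomicField.isCyclotomicExtension 7 ℚ
    have hpid := Fermat.Agent.H11.seven_pid (CyclotomicField 7 ℚ)
    exact flt_of_cycData (cycData (by norm_num)
      (IsCyclotomicExtension.zeta_spec 7 ℚ (CyclotomicField 7 ℚ)) (kummer_7
        (IsCyclotomicExtension.zeta_spec 7 ℚ (CyclotomicField 7 ℚ)))) hI ha hb hc hab hbc hca h
  · have : Fact (Nat.Prime 11) := ⟨by norm_num⟩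
    have : IsCyclotomicExtension {11} ℚ (CyclotomicField 11 ℚ) :=
      CyclotomicField.isCyclotomicExtension 11 ℚ
    have hpid := Fermat.Agent.H11.eleven_pid (CyclotomicField 11 ℚ)
    exact flt_of_cycData (cycData (by norm_num)
      (IsCyclotomicExtension.zeta_spec 11 ℚ (CyclotomicField 11 ℚ)) (kummer_11
        (IsCyclotomicExtension.zeta_spec 11 ℚ (CyclotomicField 11 ℚ)))) hI ha hb hc hab hbc hca h
  · have : Fact (Nat.Prime 13) := ⟨by norm_num⟩
    have : IsCyclotomicExtension {13} ℚ (CyclotomicField 13 ℚ) :=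
      CyclotomicField.isCyclotomicExtension 13 ℚ
    have hpid := Fermat.Agent.H11.thirteen_pid (CyclotomicField 13 ℚ)
    exact flt_of_cycData (cycData (by norm_num)
      (IsCyclotomicExtension.zeta_spec 13 ℚ (CyclotomicField 13 ℚ)) (kummer_13
        (IsCyclotomicExtension.zeta_spec 13 ℚ (CyclotomicField 13 ℚ)))) hI ha hb hc hab hbc hca h

end Fermat.Agent.H10
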