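import Mathlib

set_option autoImplicit false
set_option linter.unusedSectionVars false

/-!
# Case II of Fermat's Last Theorem over a Bezout cyclotomic ring (Kummer's descent)
-/

namespace Fermat.Agent.H10

open Polynomial Finset

/-- The facts on `ℤ[ζ_p]` used in the descent. -/
structure CycData (R : Type*) [CommRing R] (p : ℕ) (ζ : R) : Prop where
  pprime : p.Prime
  p3 : 3 ≤ p
  prim : IsPrimitiveRoot ζ p
  lprime : Prime (ζ - 1)
  residue : ∀ x : R, ∃ n : ℤ, (ζ - 1) ∣ x - n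
  assoc : Associated (p : R) ((ζ - 1) ^ (p - 1))
  kummer : ∀ (u : Rˣ) (n : ℤ), (p : R) ∣ (u : R) - n → ∃ v : Rˣ, u = v ^ p

variable {R : Type*} [CommRing R] [IsDomain R] {p : ℕ} {ζ : R}

namespace CycData

variable (D : CycData R p ζ)
include D

lemma lam_dvd_p : (ζ - 1) ∣ (p : R) := by
  have h := D.assoc.symm.dvd
  have hp := D.p3
  exact (dvd_pow_self _ (by omega)).trans h

lemma p_dvd_lam_pow {n : ℕ} (hn : p - 1 ≤ n) : (p : R) ∣ (ζ - 1) ^ n :=
  D.assoc.dvd.trans (pow_dvd_pow _ hn)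

lemma int_dvd {n : ℤ} (h : (ζ - 1) ∣ (n : R)) : (p : ℤ) ∣ n := by
  by_contra hn
  have hpZ : Prime (p : ℤ) := Nat.prime_iff_prime_int.mp D.pprime
  have hc : IsCoprime (p : ℤ) n := (Prime.coprime_iff_not_dvd hpZ).mpr hn
  obtain ⟨a, b, hab⟩ := hc
  have h1 : (ζ - 1) ∣ (1 : R) := by
    have : (1 : R) = (a : R) * (p : R) + (b : R) * (n : R) := by
      have := congrArg (fun t : ℤ => (t : R)) hab
      push_cast at this
      exact this.symm
    have h2 := dvd_add (D.lam_dvd_p.mul_left (a : R)) (h.mul_left (b : R))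
    rwa [← this] at h2
  exact D.lprime.not_isUnit (isUnit_of_dvd_one h1)

lemma dvd_of_int_dvd {n : ℤ} (h : (p : ℤ) ∣ n) : (ζ - 1) ∣ (n : R) := by
  obtain ⟨k, rfl⟩ := h
  push_cast
  exact D.lam_dvd_p.mul_right _

lemma pow_p_residue (x : R) : ∃ n : ℤ, (p : R) ∣ x ^ p - n ∧ ((ζ - 1) ∣ x ∨ ¬ (p : ℤ) ∣ n) := by
  obtain ⟨n, t, ht⟩ := D.residue x
  have hx : x = n + (ζ - 1) * t := by rw [← ht]; ring
  obtain ⟨r, hr⟩ := exists_add_pow_prime_eq D.pprime (n : R) ((ζ - 1) * t)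
  refine ⟨n ^ p, ?_, ?_⟩
  · rw [hx, hr, mul_pow]
    have h1 : (p : R) ∣ (ζ - 1) ^ p := D.p_dvd_lam_pow (by omega)
    obtain ⟨s, hs⟩ := h1
    rw [hs]
    push_cast
    exact ⟨s * t ^ p + n * ((ζ - 1) * t) * r, by ring⟩
  · by_cases hp : (p : ℤ) ∣ n ^ p
    · left
      have hpZ : Prime (p : ℤ) := Nat.prime_iff_prime_int.mp D.pprime
      have := hpZ.dvd_of_dvd_pow hp
      rw [hx]
      exact dvd_add (D.dvd_of_int_dvd this) (dvd_mul_right _ _)
    · right; exact hp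

lemma geom_sum_residue (i : ℕ) : (ζ - 1) ∣ (∑ j ∈ range i, ζ ^ j) - (i : R) := by
  have : (∑ j ∈ range i, ζ ^ j) - (i : R) = ∑ j ∈ range i, (ζ ^ j - 1) := by
    simp [Finset.sum_sub_distrib]
  rw [this]
  exact Finset.dvd_sum fun j _ => by simpa using sub_dvd_pow_sub_pow ζ 1 j

lemma exists_int_solve {a b : ℤ} (hb : ¬ (p : ℤ) ∣ b) : ∃ i : ℕ, (p : ℤ) ∣ a + i * b := by
  have hpZ : Prime (p : ℤ) := Nat.prime_iff_prime_int.mp D.pprime
  obtain ⟨u, v, huv⟩ := (Prime.coprime_iff_not_dvd hpZ).mpr hb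
  have hp0 : (0 : ℤ) < p := by exact_mod_cast D.pprime.pos
  refine ⟨((-(a * v)) % p).toNat, ?_⟩
  have h1 : (((-(a * v)) % p).toNat : ℤ) = (-(a * v)) % p :=
    Int.toNat_of_nonneg (Int.emod_nonneg _ hp0.ne')
  rw [h1]
  have h2 : (-(a * v)) % p = -(a * v) - p * ((-(a * v)) / p) := by
    rw [Int.emod_def]
  rw [h2]
  refine ⟨a * u - ((-(a * v)) / p) * b, ?_⟩
  have : a = a * (u * p + v * b) := by rw [huv, mul_one]
  linear_combination this

lemma step2 {x y : R} (h : (ζ - 1) ∣ x + y) (hy : ¬ (ζ - 1) ∣ y) :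
    ∃ i : ℕ, (ζ - 1) ^ 2 ∣ x + ζ ^ i * y := by
  obtain ⟨c, hc⟩ := h
  obtain ⟨a, s, hs⟩ := D.residue c
  obtain ⟨b, t, ht⟩ := D.residue y
  have hb : ¬ (p : ℤ) ∣ b := by
    intro hb
    apply hy
    have : y = b + (ζ - 1) * t := by rw [← ht]; ring
    rw [this]
    exact dvd_add (D.dvd_of_int_dvd hb) (dvd_mul_right _ _)
  obtain ⟨i, hi⟩ := D.exists_int_solve (a := a) hb
  obtain ⟨k, hk⟩ := D.dvd_of_int_dvd hi
  obtain ⟨g, hg⟩ := D.geom_sum_residue i
  refine ⟨i, ?_⟩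
  have h1 : ζ ^ i - 1 = (ζ - 1) * ∑ j ∈ range i, ζ ^ j := by
    rw [mul_geom_sum]
  push_cast at hk
  refine ⟨s + k + i * t + g * y, ?_⟩
  have h2 : x + ζ ^ i * y = (x + y) + (ζ ^ i - 1) * y := by ring
  rw [h2, h1, hc]
  linear_combination (ζ - 1) * hs + (ζ - 1) * hk + (ζ - 1) * y * hg + (ζ - 1) * i * ht

/-- The core step: with `π² ∣ x + y`. -/
lemma step [IsBezout R] {x y z : R} {ε : Rˣ} {m : ℕ} (hxy : IsCoprime x y)
    (hy : ¬ (ζ - 1) ∣ y) (hz : ¬ (ζ - 1) ∣ z) (h2 : (ζ - 1) ^ 2 ∣ x + y)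
    (e : x ^ p + y ^ p = ε * ((ζ - 1) ^ (m + 1) * z) ^ p) :
    ∃ m' : ℕ, m = m' + 1 ∧ ∃ (x' y' z' : R) (ε' : Rˣ), IsCoprime x' y' ∧ ¬ (ζ - 1) ∣ y' ∧
      ¬ (ζ - 1) ∣ z' ∧ x' ^ p + y' ^ p = ε' * ((ζ - 1) ^ (m' + 1) * z') ^ p := by
  classical
  have hp3 := D.p3
  have hpp := D.pprime
  have hπ := D.lprime
  have hπ0 : (ζ - 1 : R) ≠ 0 := hπ.ne_zero
  set π : R := ζ - 1 with hπdef
  set S := nthRootsFinset p (1 : R) with hS
  have h1S : (1 : R) ∈ S := by rw [hS, mem_nthRootsFinset hpp.pos]; simp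
  have hodd : Odd p := hpp.odd_of_ne_two (by omega)
  have hprod := D.prim.pow_add_pow_eq_prod_add_mul x y hodd
  -- units `η - η'`
  have hassoc : ∀ η ∈ S, ∀ η' ∈ S, η ≠ η' → ∃ u : Rˣ, η - η' = π * u := by
    intro η hη η' hη' hne
    obtain ⟨u, hu⟩ := D.prim.nthRootsFinset_pairwise_associated_sub_one_sub_of_prime hpp hη hη' hne
    exact ⟨u, hu.symm⟩
  obtain ⟨q, hq⟩ := h2
  -- `x + η y = π * c η` for `η ≠ 1`
  have hc : ∀ η ∈ S, η ≠ 1 → ∃ c, x + η * y = π * c ∧ ¬ π ∣ c := by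
    intro η hη hne
    obtain ⟨u, hu⟩ := hassoc η hη 1 h1S hne
    refine ⟨π * q + u * y, ?_, ?_⟩
    · have : x + η * y = (x + y) + (η - 1) * y := by ring
      rw [this, hq, hu]; ring
    · intro hd
      have : π ∣ (u : R) * y := (dvd_add_right (dvd_mul_right π q)).mp hd
      rcases hπ.dvd_or_dvd this with h | h
      · exact hπ.not_isUnit (isUnit_of_dvd_unit h u.isUnit)
      · exact hy h
  choose! c hc1 hc2 using hc
  -- total valuation
  have hcard : (S.erase 1).card = p - 1 := by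
    rw [Finset.card_erase_of_mem h1S, hS, D.prim.card_nthRootsFinset]
  have hsplit : (x + y) * (π ^ (p - 1) * ∏ η ∈ S.erase 1, c η) =
      ε * (π ^ (m + 1) * z) ^ p := by
    rw [← e, hprod, ← Finset.mul_prod_erase S _ h1S, one_mul]
    congr 1
    rw [← hcard, ← Finset.prod_const, ← Finset.prod_mul_distrib]
    refine Finset.prod_congr rfl fun η hη => ?_
    rw [Finset.mem_erase] at hη
    exact (hc1 η hη.2 hη.1).symm
  set C := ∏ η ∈ S.erase 1, c η with hC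
  have hCnd : ¬ π ∣ C := by
    rw [hC, Prime.dvd_finsetProd_iff hπ]
    rintro ⟨η, hη, hd⟩
    rw [Finset.mem_erase] at hη
    exact hc2 η hη.2 hη.1 hd
  have hmp : (m + 1) * p = (p - 1) + (m * p + 1) := by
    obtain ⟨k, rfl⟩ : ∃ k, p = k + 1 := ⟨p - 1, by omega⟩
    simp only [Nat.add_sub_cancel]; ring
  have h3 : (x + y) * C = ε * (π ^ (m * p + 1) * z ^ p) := by
    have : π ^ (p - 1) * ((x + y) * C) = π ^ (p - 1) * (ε * (π ^ (m * p + 1) * z ^ p)) := by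
      calc π ^ (p - 1) * ((x + y) * C) = (x + y) * (π ^ (p - 1) * C) := by ring
        _ = ε * (π ^ (m + 1) * z) ^ p := hsplit
        _ = ε * (π ^ ((m + 1) * p) * z ^ p) := by rw [mul_pow, ← pow_mul]
        _ = _ := by rw [hmp, pow_add]; ring
    exact mul_left_cancel₀ (pow_ne_zero _ hπ0) this
  have h4 : π ^ (m * p + 1) ∣ x + y := by
    apply hπ.pow_dvd_of_dvd_mul_right _ hCnd
    rw [h3]
    exact ⟨ε * z ^ p, by ring⟩
  obtain ⟨c₁, hc₁⟩ := h4
  have h5 : c₁ * C = ε * z ^ p := by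
    have : π ^ (m * p + 1) * (c₁ * C) = π ^ (m * p + 1) * (ε * z ^ p) := by
      calc _ = (x + y) * C := by rw [hc₁]; ring
        _ = _ := by rw [h3]; ring
    exact mul_left_cancel₀ (pow_ne_zero _ hπ0) this
  have hc₁nd : ¬ π ∣ c₁ := by
    intro hd
    have : π ∣ (ε : R) * z ^ p := by rw [← h5]; exact hd.mul_right _
    rcases hπ.dvd_or_dvd this with h | h
    · exact hπ.not_isUnit (isUnit_of_dvd_unit h ε.isUnit)
    · exact hz (hπ.dvd_of_dvd_pow h)
  -- `m ≥ 1`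
  obtain ⟨m', rfl⟩ : ∃ m', m = m' + 1 := by
    rcases m with _ | m'
    · exfalso
      apply hc₁nd
      have : π * c₁ = π * (π * q) := by
        have h6 : x + y = π * c₁ := by rw [hc₁]; ring
        rw [← h6, hq]; ring
      exact ⟨q, mul_left_cancel₀ hπ0 this⟩
    · exact ⟨m', rfl⟩
  refine ⟨m', rfl, ?_⟩
  -- the coprime family
  set d : R → R := fun η => if η = 1 then c₁ else c η with hd
  have hd1 : d 1 = c₁ := by simp [hd]
  have hdne : ∀ η, η ≠ 1 → d η = c η := fun η h => by simp [hd, h]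
  have hdprod : ∏ η ∈ S, d η = ε * z ^ p := by
    rw [← Finset.mul_prod_erase S d h1S, hd1, ← h5, hC]
    congr 1
    refine Finset.prod_congr rfl fun η hη => ?_
    rw [Finset.mem_erase] at hη
    exact hdne η hη.1
  -- every `d η` is `x + η y` divided by a power of `π`
  have hxyη : ∀ η ∈ S, IsCoprime (x + η * y) y := fun η _ => by
    have := (IsCoprime.add_mul_right_left_iff (x := x) (y := y) (z := η)).mpr hxy
    exact this
  have hdy : ∀ η ∈ S, IsCoprime (d η) y := by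
    intro η hη
    by_cases h1 : η = 1
    · subst h1
      have := hxyη 1 h1S
      rw [one_mul, hc₁] at this
      rw [hd1]
      exact this.of_mul_left_right
    · have := hxyη η hη
      rw [hc1 η hη h1] at this
      rw [hdne η h1]
      exact this.of_mul_left_right
  -- `d η - (π-multiple) = unit * y`
  have hpair : ∀ η ∈ S, ∀ η' ∈ S, η ≠ η' → IsCoprime (d η) (d η') := by
    -- first the case `η' ≠ 1`
    have key : ∀ η ∈ S, ∀ η' ∈ S, η ≠ η' → η' ≠ 1 → IsCoprime (d η) (d η') := by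
      intro η hη η' hη' hne hne1
      obtain ⟨u, hu⟩ := hassoc η' hη' η hη (Ne.symm hne)
      have hco : IsCoprime (d η) (u * y) :=
        (isCoprime_mul_unit_left_right u.isUnit _ _).mpr (hdy η hη)
      by_cases h1 : η = 1
      · subst h1
        have h7 : d η' = u * y + d 1 * π ^ ((m' + 1) * p) := by
          rw [hdne η' hne1, hd1]
          have : π * c η' = π * (u * y + c₁ * π ^ ((m' + 1) * p)) := by
            rw [← hc1 η' hη' hne1]
            have : x + η' * y = (x + y) + (η' - 1) * y := by ring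
            rw [this, hc₁, hu]; ring
          exact mul_left_cancel₀ hπ0 this
        rw [h7]
        exact (IsCoprime.add_mul_left_right_iff).mpr hco
      · have h7 : d η' = u * y + d η * 1 := by
          rw [hdne η' hne1, hdne η h1]
          have : π * c η' = π * (u * y + c η * 1) := by
            have h8 : π * (u * y + c η * 1) = (π * u) * y + π * c η := by ring
            rw [h8, ← hu, ← hc1 η' hη' hne1, ← hc1 η hη h1]; ring
          exact mul_left_cancel₀ hπ0 this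
        rw [h7]
        exact (IsCoprime.add_mul_left_right_iff).mpr hco
    intro η hη η' hη' hne
    by_cases h1 : η' = 1
    · have hne1 : η ≠ 1 := fun h => hne (h.trans h1.symm)
      exact (key η' hη' η hη (Ne.symm hne) hne1).symm
    · exact key η hη η' hη' hne h1
  have hpow : ∀ η ∈ S, ∃ (α : R) (u : Rˣ), d η = u * α ^ p := by
    intro η hη
    have hco : IsCoprime (d η) (∏ η' ∈ S.erase η, d η') := by
      apply IsCoprime.prod_right
      intro η' hη'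
      rw [Finset.mem_erase] at hη'
      exact hpair η hη η' hη'.2 (Ne.symm hη'.1)
    have has : Associated (z ^ p) (d η * ∏ η' ∈ S.erase η, d η') := by
      rw [Finset.mul_prod_erase S d hη, hdprod]
      exact ⟨ε, by ring⟩
    obtain ⟨α, u, hu⟩ := exists_associated_pow_of_associated_pow_mul hco has
    exact ⟨α, u, by rw [← hu]; ring⟩
  -- the three factors
  have hζS : ζ ∈ S := by rw [hS, mem_nthRootsFinset hpp.pos]; exact D.prim.pow_eq_one
  have hζ2S : ζ ^ 2 ∈ S := by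
    rw [hS, mem_nthRootsFinset hpp.pos, ← pow_mul, mul_comm, pow_mul, D.prim.pow_eq_one, one_pow]
  have hζ1 : ζ ≠ 1 := D.prim.ne_one (by omega)
  have hζ21 : ζ ^ 2 ≠ 1 := D.prim.pow_ne_one_of_pos_of_lt (by omega) (by omega)
  have hζζ2 : ζ ≠ ζ ^ 2 := by
    intro h
    apply hζ1
    have h0 : ζ ≠ 0 := D.prim.ne_zero (by omega)
    have : ζ * ζ = ζ * 1 := by rw [mul_one, ← sq, ← h]
    exact mul_left_cancel₀ h0 this
  obtain ⟨α₀, u₀, hα₀⟩ := hpow 1 h1S
  obtain ⟨α₁, u₁, hα₁⟩ := hpow ζ hζS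
  obtain ⟨α₂, u₂, hα₂⟩ := hpow (ζ ^ 2) hζ2S
  have hunit : IsUnit (1 + ζ) := by
    have := D.prim.geom_sum_isUnit (j := 2) (by omega)
      ((Nat.coprime_primes Nat.prime_two hpp).mpr (by omega))
    simpa [Finset.sum_range_succ] using this
  obtain ⟨v, hv⟩ := hunit
  have hrel : (1 + ζ) * d ζ - d (ζ ^ 2) = ζ * π ^ ((m' + 1) * p) * d 1 := by
    have : π * ((1 + ζ) * d ζ - d (ζ ^ 2)) = π * (ζ * π ^ ((m' + 1) * p) * d 1) := by
      have e1 : π * ((1 + ζ) * d ζ - d (ζ ^ 2)) = (1 + ζ) * (π * c ζ) - π * c (ζ ^ 2) := by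
        rw [hdne ζ hζ1, hdne _ hζ21]; ring
      have e2 : π * (ζ * π ^ ((m' + 1) * p) * d 1) = ζ * (π ^ ((m' + 1) * p + 1) * c₁) := by
        rw [hd1]; ring
      rw [e1, e2, ← hc1 ζ hζS hζ1, ← hc1 _ hζ2S hζ21, ← hc₁]
      ring
    exact mul_left_cancel₀ hπ0 this
  have hζu : IsUnit ζ := D.prim.isUnit (by omega)
  obtain ⟨vζ, hvζ⟩ := hζu
  -- the key equation
  set w : Rˣ := v * u₁ with hw
  have hkey : α₁ ^ p + ((-(u₂ * w⁻¹) : Rˣ) : R) * α₂ ^ p =
      ((vζ * u₀ * w⁻¹ : Rˣ) : R) * (π ^ (m' + 1) * α₀) ^ p := by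
    have hww : (w : R) * ((w⁻¹ : Rˣ) : R) = 1 := by simp
    have e1 : (w : R) * α₁ ^ p - u₂ * α₂ ^ p = vζ * π ^ ((m' + 1) * p) * (u₀ * α₀ ^ p) := by
      rw [← hα₀, hvζ, ← hrel, hα₁, hα₂, ← hv, hw]
      push_cast
      ring
    have e2 : α₁ ^ p - ((w⁻¹ : Rˣ) : R) * u₂ * α₂ ^ p =
        ((w⁻¹ : Rˣ) : R) * (vζ * π ^ ((m' + 1) * p) * (u₀ * α₀ ^ p)) := by
      rw [← e1]
      linear_combination (-α₁ ^ p) * hww
    push_cast
    rw [mul_pow, ← pow_mul]
    linear_combination e2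
  have hnd : ∀ η ∈ S, ¬ π ∣ d η := by
    intro η hη
    by_cases h1 : η = 1
    · rw [h1, hd1]; exact hc₁nd
    · rw [hdne η h1]; exact hc2 η hη h1
  have hnd' : ∀ η ∈ S, ∀ (α : R) (u : Rˣ), d η = u * α ^ p → ¬ π ∣ α := by
    intro η hη α u h hα
    apply hnd η hη
    rw [h]
    exact (hα.trans (dvd_pow_self _ (by omega))).mul_left _
  have hα₀nd := hnd' _ h1S _ _ hα₀
  have hα₁nd := hnd' _ hζS _ _ hα₁
  have hα₂nd := hnd' _ hζ2S _ _ hα₂
  -- Kummer
  obtain ⟨n₁, hn₁, -⟩ := D.pow_p_residue α₁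
  obtain ⟨n₂, hn₂, hn₂'⟩ := D.pow_p_residue α₂
  have hn₂'' : ¬ (p : ℤ) ∣ n₂ := hn₂'.resolve_left hα₂nd
  have hpZ : Prime (p : ℤ) := Nat.prime_iff_prime_int.mp D.pprime
  obtain ⟨s, t, hst⟩ := (Prime.coprime_iff_not_dvd hpZ).mpr hn₂''
  have hK : (p : R) ∣ ((-(u₂ * w⁻¹) : Rˣ) : R) - ((-(t * n₁) : ℤ) : R) := by
    set ε' : R := ((-(u₂ * w⁻¹) : Rˣ) : R) with hε'
    have hpd : (p : R) ∣ (π ^ (m' + 1) * α₀) ^ p := by
      rw [mul_pow, ← pow_mul]
      apply Dvd.dvd.mul_right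
      apply D.p_dvd_lam_pow
      calc p - 1 ≤ p := by omega
        _ ≤ (m' + 1) * p := Nat.le_mul_of_pos_left _ (by omega)
    obtain ⟨k, hk⟩ := hpd
    obtain ⟨a, ha⟩ := hn₁
    obtain ⟨b, hb⟩ := hn₂
    have hst' : (s : R) * p + t * n₂ = 1 := by
      have := congrArg (fun t : ℤ => (t : R)) hst
      push_cast at this
      exact this
    set κ : R := ((vζ * u₀ * w⁻¹ : Rˣ) : R) with hκ
    refine ⟨ε' * s + t * (κ * k - a - ε' * b), ?_⟩
    have h9 : α₁ ^ p + ε' * α₂ ^ p = κ * (p * k) := by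
      rw [hkey, hk]
    clear_value κ ε'
    push_cast
    linear_combination (-ε') * hst' + t * h9 - t * ha - t * ε' * hb
  obtain ⟨δ, hδ⟩ := D.kummer _ _ hK
  refine ⟨α₁, δ * α₂, α₀, vζ * u₀ * w⁻¹, ?_, ?_, hα₀nd, ?_⟩
  · have h10 : IsCoprime (d ζ) (d (ζ ^ 2)) := hpair _ hζS _ hζ2S hζζ2
    rw [hα₁, hα₂] at h10
    have h11 : IsCoprime (α₁ ^ p) (α₂ ^ p) := by
      have := h10.of_mul_left_right
      exact this.of_mul_right_right
    have h12 : IsCoprime α₁ α₂ := (IsCoprime.pow_iff hpp.pos hpp.pos).mp h11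
    exact (isCoprime_mul_unit_left_right δ.isUnit _ _).mpr h12
  · intro h
    rcases hπ.dvd_or_dvd h with h | h
    · exact hπ.not_isUnit (isUnit_of_dvd_unit h δ.isUnit)
    · exact hα₂nd h
  · rw [mul_pow, ← hkey, hδ]
    push_cast
    ring

lemma no_solution_aux [IsBezout R] {x y z : R} {ε : Rˣ} {m : ℕ} (hxy : IsCoprime x y)
    (hy : ¬ (ζ - 1) ∣ y) (hz : ¬ (ζ - 1) ∣ z)
    (e : x ^ p + y ^ p = ε * ((ζ - 1) ^ (m + 1) * z) ^ p)
    (H : ∀ m' : ℕ, m = m' + 1 → ¬ ∃ (x' y' z' : R) (ε' : Rˣ), IsCoprime x' y' ∧ ¬ (ζ - 1) ∣ y' ∧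
      ¬ (ζ - 1) ∣ z' ∧ x' ^ p + y' ^ p = ε' * ((ζ - 1) ^ (m' + 1) * z') ^ p) : False := by
  have hp3 := D.p3
  have hpp := D.pprime
  have hπ := D.lprime
  have hodd : Odd p := hpp.odd_of_ne_two (by omega)
  -- some factor is divisible by `π`
  have hprod := D.prim.pow_add_pow_eq_prod_add_mul x y hodd
  have h0 : (ζ - 1) ∣ ∏ η ∈ nthRootsFinset p (1 : R), (x + η * y) := by
    rw [← hprod, e]
    refine Dvd.dvd.mul_left ?_ _
    rw [mul_pow, ← pow_mul]
    exact (dvd_pow_self _ (by positivity)).mul_right _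
  rw [Prime.dvd_finsetProd_iff hπ] at h0
  obtain ⟨η, hη, hd⟩ := h0
  have h1S : (1 : R) ∈ nthRootsFinset p (1 : R) := by rw [mem_nthRootsFinset hpp.pos]; simp
  have hxy1 : (ζ - 1) ∣ x + y := by
    have := D.prim.sub_one_dvd_sub hpp h1S hη
    have h2 : x + y = (x + η * y) + (1 - η) * y := by ring
    rw [h2]
    exact dvd_add hd (this.mul_right _)
  obtain ⟨i, hi⟩ := D.step2 hxy1 hy
  have hζu : IsUnit ζ := D.prim.isUnit (by omega)
  have hζi : IsUnit (ζ ^ i) := hζu.pow i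
  have e' : x ^ p + (ζ ^ i * y) ^ p = ε * ((ζ - 1) ^ (m + 1) * z) ^ p := by
    rw [mul_pow, ← pow_mul, mul_comm i p, pow_mul, D.prim.pow_eq_one, one_pow, one_mul, e]
  have hy' : ¬ (ζ - 1) ∣ ζ ^ i * y := by
    intro h
    rcases hπ.dvd_or_dvd h with h | h
    · exact hπ.not_isUnit (isUnit_of_dvd_unit h hζi)
    · exact hy h
  have hxy' : IsCoprime x (ζ ^ i * y) := (isCoprime_mul_unit_left_right hζi _ _).mpr hxy
  obtain ⟨m', hm', h⟩ := D.step hxy' hy' hz hi e'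
  exact H m' hm' h

theorem no_solution [IsBezout R] (m : ℕ) : ∀ (x y z : R) (ε : Rˣ), IsCoprime x y →
    ¬ (ζ - 1) ∣ y → ¬ (ζ - 1) ∣ z → x ^ p + y ^ p ≠ ε * ((ζ - 1) ^ (m + 1) * z) ^ p := by
  induction m with
  | zero =>
    intro x y z ε hxy hy hz e
    exact D.no_solution_aux hxy hy hz e (fun _ h => by omega)
  | succ m ih =>
    intro x y z ε hxy hy hz e
    refine D.no_solution_aux hxy hy hz e (fun m' h => ?_)
    obtain rfl : m = m' := by omega
    rintro ⟨x', y', z', ε', h1, h2, h3, h4⟩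
    exact ih x' y' z' ε' h1 h2 h3 h4

end CycData

end Fermat.Agent.H10
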