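import Mathlib

set_option autoImplicit false
set_option linter.unusedSectionVars false

/-!
# Kummer's lemma via the logarithmic derivative and the rank of the unit group
-/

namespace Fermat.Agent.H10

open Polynomial Finset NumberField

/-- The truncated polynomial ring `𝔽_p[X]/(X^(p-2))`. -/
abbrev BB (p : ℕ) : Type := (ZMod p)[X] ⧸ Ideal.span {(X : (ZMod p)[X]) ^ (p - 2)}

/-- The class of `X`. -/
noncomputable def bx (p : ℕ) : BB p := Ideal.Quotient.mk _ X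

lemma bx_pow (p : ℕ) : bx p ^ (p - 2) = 0 := by
  rw [bx, ← map_pow, Ideal.Quotient.eq_zero_iff_mem]
  exact Ideal.subset_span rfl

lemma bb_cast (p : ℕ) : (p : BB p) = 0 := by
  have : ((p : (ZMod p)[X])) = 0 := by
    rw [← C_eq_natCast, ZMod.natCast_self, C_0]
  rw [← map_natCast (Ideal.Quotient.mk (Ideal.span {(X : (ZMod p)[X]) ^ (p - 2)})) p, this, map_zero]

/-- Dual numbers over `BB p`. -/
abbrev TT (p : ℕ) : Type := DualNumber (BB p)

/-- the image of `ζ`. -/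
noncomputable def ty (p : ℕ) : TT p := TrivSqZeroExt.inl (1 + bx p) + TrivSqZeroExt.inr 1

lemma ty_fst (p : ℕ) : (ty p).fst = 1 + bx p := by simp [ty]
lemma ty_snd (p : ℕ) : (ty p).snd = 1 := by simp [ty]

lemma ty_sub_one_pow (p : ℕ) (hp : 3 ≤ p) : (ty p - 1) ^ (p - 1) = 0 := by
  have h1 : (ty p - 1).fst = bx p := by simp [ty]
  have h2 : (ty p - 1).snd = 1 := by simp [ty]
  apply TrivSqZeroExt.ext
  · rw [TrivSqZeroExt.fst_pow, h1, TrivSqZeroExt.fst_zero]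
    have : p - 1 = (p - 2) + 1 := by omega
    rw [this, pow_succ, bx_pow, zero_mul]
  · rw [TrivSqZeroExt.snd_pow, h1, TrivSqZeroExt.snd_zero]
    have : (p - 1).pred = p - 2 := by simp; omega
    rw [this, bx_pow, h2]; simp

section

variable {p : ℕ} [hp : Fact p.Prime]

lemma aeval_ty_cyclotomic (hp3 : 3 ≤ p) : aeval (ty p) (cyclotomic p ℤ) = 0 := by
  have h1 : cyclotomic p (ZMod p) = (X - 1) ^ (p - 1) := by
    have := cyclotomic_mul_prime_eq_pow_of_not_dvd (ZMod p) (p := p) (n := 1)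
      (by simpa using hp.out.one_lt.ne')
    simpa using this
  have h2 : aeval (ty p) (cyclotomic p ℤ) = aeval (ty p) (cyclotomic p (ZMod p)) := by
    rw [aeval_def, aeval_def, ← eval_map, ← eval_map, map_cyclotomic, map_cyclotomic]
  rw [h2, h1]
  simp [ty_sub_one_pow p hp3]

variable {K : Type*} [Field K] [NumberField K]
  [IsCyclotomicExtension {p} ℚ K] {ζ : K} (hζ : IsPrimitiveRoot ζ p)

/-- The ring hom `𝓞 K → 𝔽_p[X]/(X^(p-2))[ε]`, `ζ ↦ 1 + X + ε`. -/
noncomputable def psi (hp3 : 3 ≤ p) : 𝓞 K →ₐ[ℤ] TT p :=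
  haveI : NeZero p := ⟨hp.out.ne_zero⟩
  hζ.integralPowerBasis.lift (ty p) (by
    have h1 : minpoly ℤ hζ.integralPowerBasis.gen = cyclotomic p ℤ := by
      rw [IsPrimitiveRoot.integralPowerBasis_gen, ← NumberField.RingOfIntegers.minpoly_coe]
      exact (cyclotomic_eq_minpoly hζ hp.out.pos).symm
    rw [h1, aeval_ty_cyclotomic hp3])

lemma psi_zeta [NeZero p] (hp3 : 3 ≤ p) : psi hζ hp3 hζ.toInteger = ty p := by
  rw [← IsPrimitiveRoot.integralPowerBasis_gen hζ]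
  exact PowerBasis.lift_gen _ _ _

/-- The logarithmic derivative. -/
noncomputable def dl (hp3 : 3 ≤ p) : Additive (𝓞 K)ˣ →+ BB p where
  toFun u := (psi hζ hp3 ((u.toMul⁻¹ : (𝓞 K)ˣ) : 𝓞 K)).fst * (psi hζ hp3 ((u.toMul : (𝓞 K)ˣ) : 𝓞 K)).snd
  map_zero' := by simp
  map_add' u v := by
    have hu : (psi hζ hp3 ((u.toMul⁻¹ : (𝓞 K)ˣ) : 𝓞 K)).fst *
        (psi hζ hp3 ((u.toMul : (𝓞 K)ˣ) : 𝓞 K)).fst = 1 := by
      rw [← TrivSqZeroExt.fst_mul, ← map_mul]; simp
    have hv : (psi hζ hp3 ((v.toMul⁻¹ : (𝓞 K)ˣ) : 𝓞 K)).fst *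
        (psi hζ hp3 ((v.toMul : (𝓞 K)ˣ) : 𝓞 K)).fst = 1 := by
      rw [← TrivSqZeroExt.fst_mul, ← map_mul]; simp
    simp only [toMul_add, mul_inv, Units.val_mul, map_mul, TrivSqZeroExt.fst_mul,
      TrivSqZeroExt.snd_mul, op_smul_eq_mul, smul_eq_mul]
    set a := (psi hζ hp3 ((u.toMul⁻¹ : (𝓞 K)ˣ) : 𝓞 K)).fst
    set b := (psi hζ hp3 ((v.toMul⁻¹ : (𝓞 K)ˣ) : 𝓞 K)).fst
    set c := (psi hζ hp3 ((u.toMul : (𝓞 K)ˣ) : 𝓞 K)).fst
    set d := (psi hζ hp3 ((v.toMul : (𝓞 K)ˣ) : 𝓞 K)).fst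
    set e := (psi hζ hp3 ((u.toMul : (𝓞 K)ˣ) : 𝓞 K)).snd
    set f := (psi hζ hp3 ((v.toMul : (𝓞 K)ˣ) : 𝓞 K)).snd
    linear_combination b * f * hu + a * e * hv

lemma dl_eq_iff (hp3 : 3 ≤ p) (u : (𝓞 K)ˣ) (w : BB p) :
    dl hζ hp3 (Additive.ofMul u) = w ↔
      (psi hζ hp3 (u : 𝓞 K)).snd = w * (psi hζ hp3 (u : 𝓞 K)).fst := by
  have hu : (psi hζ hp3 ((u⁻¹ : (𝓞 K)ˣ) : 𝓞 K)).fst *
      (psi hζ hp3 (u : 𝓞 K)).fst = 1 := by
    rw [← TrivSqZeroExt.fst_mul, ← map_mul]; simp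
  change (psi hζ hp3 ((u⁻¹ : (𝓞 K)ˣ) : 𝓞 K)).fst * (psi hζ hp3 (u : 𝓞 K)).snd = w ↔ _
  constructor
  · rintro rfl
    linear_combination (-(psi hζ hp3 (u : 𝓞 K)).snd) * hu
  · intro h
    rw [h]
    linear_combination w * hu

/-- If `u` is congruent to a rational integer mod `p`, the logarithmic derivative vanishes. -/
lemma dl_eq_zero_of_congr (hp3 : 3 ≤ p) (u : (𝓞 K)ˣ) (n : ℤ) (h : (p : 𝓞 K) ∣ (u : 𝓞 K) - n) :
    dl hζ hp3 (Additive.ofMul u) = 0 := by
  rw [dl_eq_iff, zero_mul]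
  obtain ⟨t, ht⟩ := h
  have hu : (u : 𝓞 K) = n + p * t := by rw [← ht]; ring
  rw [hu, map_add, map_mul, map_intCast, map_natCast]
  have hpT : ((p : ℕ) : TT p) = 0 := by
    apply TrivSqZeroExt.ext
    · simpa using bb_cast p
    · simp
  rw [hpT, zero_mul, add_zero]
  simp

/-- The main dimension count. -/
theorem exists_pow_of_hom_eq_zero {V : Type*} [AddCommGroup V] [Module (ZMod p) V]
    (hp3 : 3 ≤ p) (f : Additive (𝓞 K)ˣ →+ V) {m : ℕ} (hm : NumberField.Units.rank K + 1 ≤ m)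
    (w : Fin m → (𝓞 K)ˣ) (hw : LinearIndependent (ZMod p) fun i => f (Additive.ofMul (w i)))
    (u : (𝓞 K)ˣ) (hu : f (Additive.ofMul u) = 0) (hζ : IsPrimitiveRoot ζ p) : ∃ v : (𝓞 K)ˣ, u = v ^ p := by
  have : NeZero p := ⟨hp.out.ne_zero⟩
  have hodd : Odd p := hp.out.odd_of_ne_two (by omega)
  obtain ⟨z, hz⟩ : IsUnit hζ.toInteger := hζ.toInteger_isPrimitiveRoot.isUnit (by omega)
  have hzprim : IsPrimitiveRoot z p := by
    have := hζ.toInteger_isPrimitiveRoot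
    rw [← hz] at this
    exact IsPrimitiveRoot.coe_units_iff.mp this
  -- torsion units
  have htors : ∀ x : (𝓞 K)ˣ, x ∈ NumberField.Units.torsion K → ∃ k : ℕ, x = z ^ k * (x⁻¹) ^ p := by
    intro x hx
    have h2p : x ^ (2 * p) = 1 := by
      have h1 : NumberField.Units.torsionOrder K = 2 * p := by
        rw [IsCyclotomicExtension.Rat.torsionOrder_eq (n := p) (K := K),
          if_neg (Nat.not_even_iff_odd.mpr hodd)]
      have h2 : (⟨x, hx⟩ : NumberField.Units.torsion K) ^ (NumberField.Units.torsionOrder K) = 1 := by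
        rw [NumberField.Units.torsionOrder]
        exact pow_card_eq_one'
      have h3 := congrArg (fun t : NumberField.Units.torsion K => (t : (𝓞 K)ˣ)) h2
      rw [h1] at h3
      simpa using h3
    have h4 : (x ^ (p + 1)) ^ p = 1 := by
      obtain ⟨k, hk⟩ := hodd
      have : (p + 1) * p = (2 * p) * (k + 1) := by rw [hk]; ring
      rw [← pow_mul, this, pow_mul, h2p, one_pow]
    obtain ⟨k, -, hk0⟩ := hζ.toInteger_isPrimitiveRoot.eq_pow_of_pow_eq_one
      (ξ := ((x ^ (p + 1) : (𝓞 K)ˣ) : 𝓞 K)) (by rw [← Units.val_pow_eq_pow_val, h4, Units.val_one])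
    have hk : z ^ k = x ^ (p + 1) := by
      ext1
      rw [Units.val_pow_eq_pow_val, hz, hk0]
    refine ⟨k, ?_⟩
    rw [hk, pow_succ, inv_pow]
    rw [mul_comm (x ^ p) x, mul_assoc, mul_inv_cancel, mul_one]
  have hfpow : ∀ (x : (𝓞 K)ˣ), f (Additive.ofMul (x ^ p)) = 0 := by
    intro x
    rw [ofMul_pow, map_nsmul, ← Nat.cast_smul_eq_nsmul (ZMod p), ZMod.natCast_self, zero_smul]
  have hfzpow : ∀ (x : (𝓞 K)ˣ) (n : ℤ), f (Additive.ofMul (x ^ n)) =
      (n : ZMod p) • f (Additive.ofMul x) := by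
    intro x n
    rw [ofMul_zpow, map_zsmul, ← Int.cast_smul_eq_zsmul (ZMod p)]
  set v : Option (Fin (NumberField.Units.rank K)) → V := fun o => o.elim (f (Additive.ofMul z))
    (fun i => f (Additive.ofMul (NumberField.Units.fundSystem K i))) with hv
  have hrep : ∀ x : (𝓞 K)ˣ, ∃ (t : NumberField.Units.torsion K) (e : Fin (NumberField.Units.rank K) → ℤ) (k : ℕ),
      x = t * ∏ i, NumberField.Units.fundSystem K i ^ e i ∧
      (t : (𝓞 K)ˣ) = z ^ k * ((t : (𝓞 K)ˣ)⁻¹) ^ p ∧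
      f (Additive.ofMul x) = (k : ZMod p) • v none + ∑ i, (e i : ZMod p) • v (some i) := by
    intro x
    obtain ⟨⟨t, e⟩, hte, -⟩ := NumberField.Units.exist_unique_eq_mul_prod K x
    obtain ⟨k, hk⟩ := htors t t.2
    refine ⟨t, e, k, hte, hk, ?_⟩
    have h1 : f (Additive.ofMul (t : (𝓞 K)ˣ)) = (k : ZMod p) • v none := by
      rw [hk, ofMul_mul, map_add, hfpow, add_zero]
      have := hfzpow z k
      simpa [hv, Option.elim] using this
    conv_lhs => rw [hte]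
    rw [ofMul_mul, map_add, h1, ofMul_prod, map_sum]
    congr 1
    refine Finset.sum_congr rfl fun i _ => ?_
    rw [hfzpow]
    rfl
  have hspan : ∀ x : (𝓞 K)ˣ, f (Additive.ofMul x) ∈ Submodule.span (ZMod p) (Set.range v) := by
    intro x
    obtain ⟨t, e, k, -, -, h⟩ := hrep x
    rw [h]
    refine Submodule.add_mem _ (Submodule.smul_mem _ _ (Submodule.subset_span ⟨none, rfl⟩))
      (Submodule.sum_mem _ fun i _ => Submodule.smul_mem _ _ (Submodule.subset_span ⟨some i, rfl⟩))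
  have hlin : LinearIndependent (ZMod p) v := by
    rw [linearIndependent_iff_card_le_finrank_span]
    have h1 : Fintype.card (Option (Fin (NumberField.Units.rank K))) ≤ m := by
      simpa using hm
    refine h1.trans ?_
    have h2 : Submodule.span (ZMod p) (Set.range fun i => f (Additive.ofMul (w i))) ≤
        Submodule.span (ZMod p) (Set.range v) := by
      rw [Submodule.span_le]
      rintro _ ⟨i, rfl⟩
      exact hspan (w i)
    have h3 := finrank_span_eq_card hw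
    rw [Fintype.card_fin] at h3
    have h4 : Module.finrank (ZMod p) (Submodule.span (ZMod p) (Set.range fun i => f (Additive.ofMul (w i)))) ≤
        Module.finrank (ZMod p) (Submodule.span (ZMod p) (Set.range v)) := by
      have : Module.Finite (ZMod p) (Submodule.span (ZMod p) (Set.range v)) :=
        Module.Finite.span_of_finite _ (Set.finite_range v)
      exact Submodule.finrank_mono h2
    rw [h3] at h4
    exact h4
  obtain ⟨t, e, k, hte, hk, h⟩ := hrep u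
  rw [hu] at h
  rw [Fintype.linearIndependent_iff] at hlin
  have h5 := hlin (fun o => o.elim (k : ZMod p) (fun i => (e i : ZMod p))) (by
    rw [Fintype.sum_option]
    exact h.symm)
  have hk0 : (p : ℕ) ∣ k := by
    have := h5 none
    simpa [ZMod.natCast_eq_zero_iff] using this
  have he0 : ∀ i, (p : ℤ) ∣ e i := by
    intro i
    have := h5 (some i)
    simpa [ZMod.intCast_zmod_eq_zero_iff_dvd] using this
  obtain ⟨k', rfl⟩ := hk0
  choose e' he' using he0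
  refine ⟨z ^ k' * ((t : (𝓞 K)ˣ)⁻¹) * ∏ i, NumberField.Units.fundSystem K i ^ e' i, ?_⟩
  rw [hte, mul_pow, mul_pow, ← pow_mul, mul_comm k' p, ← hk, ← Finset.prod_pow]
  congr 1
  refine Finset.prod_congr rfl fun i _ => ?_
  rw [he' i, mul_comm, zpow_mul, zpow_natCast]

lemma dl_geom (hp3 : 3 ≤ p) [NeZero p] (a : ℕ) (u : (𝓞 K)ˣ)
    (hu : (u : 𝓞 K) = ∑ i ∈ range a, hζ.toInteger ^ i) (W : BB p)
    (hW : ∑ i ∈ range a, (i : BB p) * (1 + bx p) ^ (i - 1) = W * ∑ i ∈ range a, (1 + bx p) ^ i) :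
    dl hζ hp3 (Additive.ofMul u) = W := by
  rw [dl_eq_iff, hu, map_sum]
  simp only [map_pow, psi_zeta, TrivSqZeroExt.fst_sum, TrivSqZeroExt.snd_sum,
    TrivSqZeroExt.fst_pow, TrivSqZeroExt.snd_pow, ty_fst, ty_snd, smul_eq_mul, mul_one,
    nsmul_eq_mul]
  rw [← hW]
  rfl

lemma dl_zeta (hp3 : 3 ≤ p) [NeZero p] (u : (𝓞 K)ˣ)
    (hu : (u : 𝓞 K) = hζ.toInteger) (W : BB p)
    (hW : 1 = W * (1 + bx p)) :
    dl hζ hp3 (Additive.ofMul u) = W := by
  rw [dl_eq_iff, hu, psi_zeta, ty_fst, ty_snd]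
  exact hW

/-- Linear independence from an explicit right inverse. -/
lemma li_of_matrix {m n : ℕ} (hn : n = p - 2) (A : Matrix (Fin m) (Fin n) ℕ)
    (Q : Matrix (Fin n) (Fin m) ℕ)
    (hAQ : A.map (Nat.cast : ℕ → ZMod p) * Q.map (Nat.cast : ℕ → ZMod p) = 1) :
    LinearIndependent (ZMod p)
      (fun j => (∑ k : Fin n, ((A j k : ℕ) : BB p) * bx p ^ (k : ℕ) : BB p)) := by
  rw [Fintype.linearIndependent_iff]
  intro g hg
  have h1 : ∀ j, g j • (∑ k : Fin n, ((A j k : ℕ) : BB p) * bx p ^ (k : ℕ) : BB p) =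
      Ideal.Quotient.mk _ (C (g j) * ∑ k : Fin n, C ((A j k : ℕ) : ZMod p) * X ^ (k : ℕ)) := by
    intro j
    have h0 : (∑ k : Fin n, ((A j k : ℕ) : BB p) * bx p ^ (k : ℕ) : BB p) =
        Ideal.Quotient.mk _ (∑ k : Fin n, C ((A j k : ℕ) : ZMod p) * X ^ (k : ℕ)) := by
      rw [map_sum]
      refine Finset.sum_congr rfl fun k _ => ?_
      rw [map_mul, map_pow, C_eq_natCast, map_natCast]
      rfl
    rw [h0, ← smul_eq_C_mul]
    rfl
  simp_rw [h1] at hg
  rw [← map_sum, Ideal.Quotient.eq_zero_iff_mem, Ideal.mem_span_singleton, X_pow_dvd_iff] at hg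
  have h2 : ∀ k : Fin n, ∑ j, g j * ((A j k : ℕ) : ZMod p) = 0 := by
    intro k
    have := hg k (by rw [← hn]; exact k.2)
    rw [finsetSum_coeff] at this
    rw [← this]
    refine Finset.sum_congr rfl fun j _ => ?_
    rw [coeff_C_mul, finsetSum_coeff]
    congr 1
    rw [Finset.sum_eq_single k]
    · simp
    · intro b _ hb
      rw [coeff_C_mul, coeff_X_pow, if_neg, mul_zero]
      exact fun h => hb (Fin.ext h.symm)
    · simp
  have h3 : Matrix.vecMul g (A.map (Nat.cast : ℕ → ZMod p)) = 0 := by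
    ext k
    simpa [Matrix.vecMul, dotProduct] using h2 k
  have h4 : g = 0 := by
    have := congrArg (Matrix.vecMul g) hAQ
    rw [← Matrix.vecMul_vecMul, h3, Matrix.zero_vecMul, Matrix.vecMul_one] at this
    exact this.symm
  intro i
  rw [h4]; rfl

lemma rank_eq (hp3 : 3 ≤ p) [NeZero p] : NumberField.Units.rank K + 1 = (p - 1) / 2 := by
  have h1 : Fintype.card (InfinitePlace K) = (p - 1) / 2 := by
    rw [InfinitePlace.card_eq_nrRealPlaces_add_nrComplexPlaces,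
      IsCyclotomicExtension.Rat.nrRealPlaces_eq_zero (n := p) K (by omega),
      IsCyclotomicExtension.Rat.nrComplexPlaces_eq_totient_div_two p K,
      Nat.totient_prime hp.out, zero_add]
  rw [NumberField.Units.rank, h1]
  have : 1 ≤ (p - 1) / 2 := by omega
  omega

/-- Kummer's lemma from explicit data. -/
theorem kummer_explicit (hp3 : 3 ≤ p) {m n : ℕ} (hn : n = p - 2) (hm : (p - 1) / 2 ≤ m)
    (A : Matrix (Fin m) (Fin n) ℕ) (Q : Matrix (Fin n) (Fin m) ℕ)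
    (hAQ : A.map (Nat.cast : ℕ → ZMod p) * Q.map (Nat.cast : ℕ → ZMod p) = 1)
    (w : Fin m → (𝓞 K)ˣ)
    (hw : ∀ j, dl hζ hp3 (Additive.ofMul (w j)) =
      ∑ k : Fin n, ((A j k : ℕ) : BB p) * bx p ^ (k : ℕ))
    (u : (𝓞 K)ˣ) (a : ℤ) (h : (p : 𝓞 K) ∣ (u : 𝓞 K) - a) : ∃ v : (𝓞 K)ˣ, u = v ^ p := by
  have : NeZero p := ⟨hp.out.ne_zero⟩
  refine exists_pow_of_hom_eq_zero hp3 (dl hζ hp3) (m := m) ?_ w ?_ u
    (dl_eq_zero_of_congr hζ hp3 u a h) hζ
  · rw [rank_eq hp3]; exact hm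
  · simp_rw [hw]
    exact li_of_matrix hn A Q hAQ

end

end Fermat.Agent.H10
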